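/-
S44, node X, block PL (owner helper223): the ABSTRACT "slope formula" on the cyclic cover, and the
purity statement which provides the regular points of the cover.  DEFINITIONS.

Language of `S18/Defs.lean` (`IsUnif`), `S36/BP/Defs.lean` (`RUnit`, `rad`, `Through`, `IsPt`,
`HorDiv`, `locSub`) and `KLB/Abs/Defs.lean` (`Unr` = trivial codifferent).

* `K₀`  : the inertia field, `A₀` its valuation ring (uniformiser `p`, residue field alg. closed);
* `E`   : the function field of `X` over `K₀`;   `F` : the function field of the cover `Y`;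
* `σ`   : a generator of the group of `F / E` (cyclic of order `p`);
* vertical valuations are `ValuationSubring`s, closed points of the models are `Subring`s.
-/
import Mathlib
import Fermat.Agent.S18.Defs
import Fermat.Agent.S36.BP.Defs
import Fermat.Agent.KLB.Abs.Defs

set_option autoImplicit false

noncomputable section

namespace Fermat.Agent.S44.PL

open Fermat.Agent.S18 Fermat.Agent.S36.BP Fermat.Agent.KLB

section OneField

variable {K₀ F : Type*} [Field K₀] [Field F] [Algebra K₀ F]

/-- "The horizontal divisor of `u` is divisible by `n` near the point `R`": the condition of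
`S36.BP.HorDiv`, only for the horizontal valuation rings which contain `R`. -/
def HorDivAt (K₀ : Type*) [Field K₀] [Algebra K₀ F] (R : Subring F) (n : ℕ) (u : F) : Prop :=
  ∀ W : ValuationSubring F, (∀ a : K₀, algebraMap K₀ F a ∈ W) → (∀ r ∈ R, r ∈ W) →
    ∃ t : F, t ≠ 0 ∧ W.valuation (u * t ^ n) = 1

/-- **A regular point of a model with reduced special fibre.**  The vertical components through
`R` are the `V c`; the prime `R ∩ 𝔪_{V c}` is generated by `π c`, every `R / (π c)` is a discrete
valuation ring and `p = ∏ π c`.  (`ι = Unit`: smooth point; `ι = Bool`: node `x y = p`.) -/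
structure RegPt (A₀ : ValuationSubring K₀) (p : ℕ) (R : Subring F) {ι : Type*} [Fintype ι]
    (V : ι → ValuationSubring F) (π : ι → F) : Prop where
  nonempty : Nonempty ι
  pt : IsPt A₀ R
  thr : ∀ c, Through R (V c)
  unif : ∀ c, IsUnif (V c) (p : F)
  mem : ∀ c, π c ∈ R
  val_self : ∀ c, (V c).valuation (π c) = (V c).valuation (p : F)
  val_other : ∀ c c', c ≠ c' → (V c').valuation (π c) = 1
  princ : ∀ c, ∀ r ∈ R, (V c).valuation r < 1 → r / π c ∈ R
  prod : ∏ c, π c = (p : F)

/-- **A node `x y = p`** of the model: the two branches are `Va` (where `x` is a unit, i.e. a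
non-constant function, and `y` a uniformiser) and `Vb`; `x` is a local parameter at the point on
the branch `Va`. -/
structure IsNode (A₀ : ValuationSubring K₀) (p : ℕ) (R : Subring F) (Va Vb : ValuationSubring F)
    (x y : F) : Prop where
  pt : IsPt A₀ R
  thr_a : Through R Va
  thr_b : Through R Vb
  unif_a : IsUnif Va (p : F)
  unif_b : IsUnif Vb (p : F)
  x_mem : x ∈ R
  y_mem : y ∈ R
  mul_eq : x * y = (p : F)
  x_unit : Va.valuation x = 1
  y_unit : Vb.valuation y = 1
  princ_a : ∀ r ∈ R, Va.valuation r < 1 → r / y ∈ R
  princ_b : ∀ r ∈ R, Vb.valuation r < 1 → r / x ∈ R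

/-- **A smooth point** of the model, on the component `V`. -/
structure IsSmooth (A₀ : ValuationSubring K₀) (p : ℕ) (R : Subring F) (V : ValuationSubring F) :
    Prop where
  pt : IsPt A₀ R
  thr : Through R V
  unif : IsUnif V (p : F)
  princ : ∀ r ∈ R, V.valuation r < 1 → r / (p : F) ∈ R

end OneField

section TwoFields

variable {E F : Type*} [Field E] [Field F] [Algebra E F]

/-- **The vertical valuation `V` of `E` splits completely in `F`**: the `p` sheets `W i`, permuted
cyclically by `σ`. -/
structure Sheets (p : ℕ) (σ : F ≃ₐ[E] F) (V : ValuationSubring E)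
    (W : ZMod p → ValuationSubring F) : Prop where
  lies : ∀ i (z : E), algebraMap E F z ∈ W i ↔ z ∈ V
  shift : ∀ i (z : F), σ z ∈ W i ↔ z ∈ W (i + 1)
  inj : Function.Injective W
  unif : ∀ i, IsUnif (W i) (p : F)

/-- The integral closure of the subring `R` of `E` in `F`, as a subring of `F`. -/
abbrev icl (R : Subring E) (F : Type*) [Field F] [Algebra E F] : Subring F :=
  (integralClosure R F).toSubring

/-- The image in `F` of a subring of `E`. -/
abbrev up (F : Type*) [Field F] [Algebra E F] (R : Subring E) : Subring F :=
  R.map (algebraMap E F)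

/-- The maximal ideal `𝔫` of the integral closure of `R` lies on the sheets `W c (l c)`. -/
def OnSheets {p : ℕ} {ι : Type*} (R : Subring E) (W : ι → ZMod p → ValuationSubring F)
    (𝔫 : Ideal (icl R F)) (l : ι → ZMod p) : Prop :=
  ∀ c, ∀ b : icl R F, (W c (l c)).valuation (b : F) < 1 → b ∈ 𝔫

/-- **Horizontal unramifiedness** of `F / E` (function fields over `K₀`). -/
def HorUnr (K₀ E F : Type*) [Field K₀] [Field E] [Field F] [Algebra K₀ E] [Algebra E F] : Prop :=
  ∀ W : ValuationSubring E, (∀ a : K₀, algebraMap K₀ E a ∈ W) → Unr W.toSubring E F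

end TwoFields

end Fermat.Agent.S44.PL

end
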