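/-
S44 / X / PL, node L1 (owner of the block: helper223; this file: helper267).
Local `n`-th roots up to units at a point `R` of the model, with the LOCAL hypothesis `HorDivAt`
(same proof as `S36.BP.LocalRoot.exists_local_root_of`).
-/
import Fermat.Agent.S44.X.PL.Defs
import Fermat.Agent.S18.Chart.Unif
import Fermat.Agent.S18.Abs.PrimeVal
import Fermat.Agent.S36.BP.LocalRoot.Abs

set_option autoImplicit false

noncomputable section

namespace Fermat.Agent.S44.PL

open Fermat.Agent.S18 Fermat.Agent.S18.Abs Fermat.Agent.S36.BP Fermat.Agent.KLB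
open Fermat.Agent.S36.BP.LocalRoot IsLocalRing

section L

variable {K₀ F : Type*} [Field K₀] [Field F] [Algebra K₀ F] {A₀ : ValuationSubring K₀}
  {R : Subring F}

/-- L1 -/
theorem exists_local_root_at {q : ℕ} (hunif : IsUnif A₀ (q : K₀)) (hR : IsPt A₀ R) {ι : Type*}
    (V : ι → ValuationSubring F) (hpr : ∃ c, Through R (V c) ∧ Princ R (V c))
    (hqep : ∀ y : F, (q : F) * y ∈ R → (∀ c, Through R (V c) → y ∈ V c) → y ∈ R)
    {n : ℕ} {u : F} (hu : ∀ c, (V c).valuation u = 1) (hd : HorDivAt K₀ R n u) :
    ∃ g : F, RUnit R (g ^ n * u) := by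
  obtain ⟨c₀, hT₀, hP₀⟩ := hpr
  have hufd : UniqueFactorizationMonoid R := ufd_of_through_princ hR hT₀ hP₀
  have hfrac : IsFractionRing R F := isFractionRing_of_through hT₀
  have hu0 : u ≠ 0 := by
    rintro rfl
    have := hu c₀
    simp at this
  have hqR : (q : F) ∈ R := natCast_mem R q
  have H : PUnitUpToPow R n u := by
    intro p hp
    set W := primeValSubring F p hp with hW
    have hRW : ∀ r ∈ R, r ∈ W := fun r hr => algebraMap_mem_primeValSubring hp ⟨r, hr⟩
    by_cases hq : ((q : F))⁻¹ ∈ W
    · -- horizontal prime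
      have hK : ∀ a : K₀, algebraMap K₀ F a ∈ W := by
        intro a
        obtain ⟨r, hr⟩ := hunif.exists_pow_mul_mem a
        have hq0 : (q : K₀) ≠ 0 := hunif.ne_zero
        have hq0F : (q : F) ≠ 0 := by
          have := (map_ne_zero (algebraMap K₀ F)).2 hq0
          rwa [map_natCast] at this
        have h1 : algebraMap K₀ F a = ((q : F))⁻¹ ^ r * algebraMap K₀ F ((q : K₀) ^ r * a) := by
          rw [map_mul, map_pow, map_natCast, inv_pow]
          field_simp
        rw [h1]
        exact W.mul_mem _ _ (W.pow_mem hq r) (hRW _ (hR.const_mem _ hr))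
      obtain ⟨t, ht0, ht⟩ := hd W hK hRW
      have hy0 : t ^ n * u ≠ 0 := mul_ne_zero (pow_ne_zero _ ht0) hu0
      have hval : W.valuation (t ^ n * u) = 1 := by rw [mul_comm]; exact ht
      have hy1 : t ^ n * u ∈ W := (W.valuation_le_one_iff _).1 hval.le
      have hy2 : (t ^ n * u)⁻¹ ∈ W := by
        rw [← W.valuation_le_one_iff, map_inv₀, hval, inv_one]
      obtain ⟨a, b, ha, hb, e⟩ := exists_of_mem_of_inv_mem hp hy0 hy1 hy2
      exact ⟨t, a, b, ht0, ha, hb, e⟩
    · -- vertical prime
      have hpq : p ∣ (⟨(q : F), hqR⟩ : R) := by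
        by_contra hnd
        exact hq (inv_mem_primeValSubring hp hnd)
      obtain ⟨m, hm⟩ := hpq
      have hp0 : (p : F) ≠ 0 := fun h => hp.ne_zero (Subtype.ext h)
      have hex : ∃ c, ∃ hT : Through R (V c), p ∈ contr R (V c) hT := by
        by_contra hcon
        push Not at hcon
        have h1 : ((p : F))⁻¹ ∈ R := by
          apply hqep
          · have h2 : (q : F) = (p : F) * (m : F) := congrArg Subtype.val hm
            rw [h2]
            have h3 : (p : F) * (m : F) * ((p : F))⁻¹ = m := by field_simp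
            rw [h3]
            exact m.2
          · intro c hT
            have h2 := hcon c hT
            rw [mem_contr, not_lt] at h2
            rw [← (V c).valuation_le_one_iff, map_inv₀]
            exact inv_le_one_of_one_le₀ h2
        exact hp.not_isUnit ((isUnit_iff_rUnit p).2 ⟨hp0, p.2, h1⟩)
      obtain ⟨c, hT, hpc⟩ := hex
      have hle := le_primeValSubring_of_mem_contr hT hp hpc
      have hu1 : u ∈ W := hle u (((V c).valuation_le_one_iff _).1 (hu c).le)
      have hu2 : u⁻¹ ∈ W := by
        apply hle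
        rw [← (V c).valuation_le_one_iff, map_inv₀, hu c, inv_one]
      obtain ⟨a, b, ha, hb, e⟩ := exists_of_mem_of_inv_mem hp hu0 hu1 hu2
      exact ⟨1, a, b, one_ne_zero, ha, hb, by rw [one_pow, one_mul]; exact e⟩
  obtain ⟨g, υ, -, e⟩ := exists_root_unit n hu0 H
  refine ⟨g, ?_⟩
  rw [e]
  exact (isUnit_iff_rUnit (υ : R)).1 υ.isUnit

end L

end Fermat.Agent.S44.PL

end
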