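/-
S44 / X / PL, nodes L2, L4, L5: regular points satisfy the `q`-expansion principle; nodes and smooth
points are regular points.   Owner: helper206.
-/
import Fermat.Agent.S44.X.PL.Defs

set_option autoImplicit false

noncomputable section

namespace Fermat.Agent.S44.PL

open Fermat.Agent.S18 Fermat.Agent.S36.BP Fermat.Agent.KLB

section L

variable {K₀ F : Type*} [Field K₀] [Field F] [Algebra K₀ F] {A₀ : ValuationSubring K₀}
  {R : Subring F}

theorem Reg.val_unif_lt_one {V : ValuationSubring F} {ϖ : F} (h : IsUnif V ϖ) :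
    V.valuation ϖ < 1 := by
  refine lt_of_le_of_ne ((V.valuation_le_one_iff _).2 h.mem) fun h1 => h.inv_notMem ?_
  rw [← V.valuation_le_one_iff, map_inv₀, h1, inv_one]

theorem Reg.unif_ne_zero {V : ValuationSubring F} {ϖ : F} (h : IsUnif V ϖ) : ϖ ≠ 0 := by
  rintro rfl
  apply h.inv_notMem
  rw [inv_zero]
  exact V.zero_mem

variable {p : ℕ} {ι : Type*} [Fintype ι] {V : ι → ValuationSubring F} {π : ι → F}

theorem RegPt.reg_pi_ne_zero (h : RegPt A₀ p R V π) (c : ι) : π c ≠ 0 := by
  intro h0
  have h1 := h.val_self c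
  rw [h0, map_zero] at h1
  exact Reg.unif_ne_zero (h.unif c) ((map_eq_zero _).1 h1.symm)

theorem RegPt.qep_aux (h : RegPt A₀ p R V π) (s : Finset ι) :
    ∀ z : F, (∏ c ∈ s, π c) * z ∈ R → (∀ c ∈ s, z ∈ V c) → z ∈ R := by
  classical
  induction s using Finset.induction_on with
  | empty =>
    intro z hz _
    simpa using hz
  | insert c₀ s hc₀ ih =>
    intro z hz hV
    rw [Finset.prod_insert hc₀, mul_assoc] at hz
    refine ih z ?_ fun c hc => hV c (Finset.mem_insert_of_mem hc)
    have hlt : (V c₀).valuation (π c₀ * ((∏ c ∈ s, π c) * z)) < 1 := by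
      rw [map_mul, h.val_self c₀]
      have h1 : (V c₀).valuation ((∏ c ∈ s, π c) * z) ≤ 1 := by
        rw [(V c₀).valuation_le_one_iff]
        exact mul_mem ((h.thr c₀).le _ (R.prod_mem fun c _ => h.mem c))
          (hV c₀ (Finset.mem_insert_self _ _))
      calc (V c₀).valuation (p : F) * (V c₀).valuation ((∏ c ∈ s, π c) * z)
          ≤ (V c₀).valuation (p : F) * 1 := mul_le_mul_right h1 _
        _ < 1 := by
          rw [mul_one]
          exact Reg.val_unif_lt_one (h.unif c₀)
    have h2 := h.princ c₀ _ hz hlt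
    rwa [mul_div_cancel_left₀ _ (h.reg_pi_ne_zero c₀)] at h2

/-- L2 -/
theorem RegPt.qep (h : RegPt A₀ p R V π) (z : F) (hz : (p : F) * z ∈ R) (hV : ∀ c, z ∈ V c) :
    z ∈ R := by
  refine h.qep_aux Finset.univ z ?_ fun c _ => hV c
  rw [h.prod]
  exact hz

/-- L4 -/
theorem IsNode.regPt {Va Vb : ValuationSubring F} {x y : F} (h : IsNode A₀ p R Va Vb x y) :
    RegPt A₀ p R (fun b : Bool => cond b Va Vb) (fun b : Bool => cond b y x) where
  nonempty := ⟨true⟩
  pt := h.pt
  thr := by
    rintro (_ | _)
    · exact h.thr_b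
    · exact h.thr_a
  unif := by
    rintro (_ | _)
    · exact h.unif_b
    · exact h.unif_a
  mem := by
    rintro (_ | _)
    · exact h.x_mem
    · exact h.y_mem
  val_self := by
    rintro (_ | _)
    · change Vb.valuation x = Vb.valuation (p : F)
      rw [← h.mul_eq, map_mul, h.y_unit, mul_one]
    · change Va.valuation y = Va.valuation (p : F)
      rw [← h.mul_eq, map_mul, h.x_unit, one_mul]
  val_other := by
    rintro (_ | _) (_ | _) hne
    · exact absurd rfl hne
    · exact h.x_unit
    · exact h.y_unit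
    · exact absurd rfl hne
  princ := by
    rintro (_ | _)
    · exact h.princ_b
    · exact h.princ_a
  prod := by
    rw [Fintype.prod_bool]
    change y * x = (p : F)
    rw [mul_comm, h.mul_eq]

/-- L5 -/
theorem IsSmooth.regPt {V : ValuationSubring F} (h : IsSmooth A₀ p R V) :
    RegPt A₀ p R (fun _ : Unit => V) (fun _ : Unit => (p : F)) where
  nonempty := ⟨()⟩
  pt := h.pt
  thr := fun _ => h.thr
  unif := fun _ => h.unif
  mem := fun _ => natCast_mem R p
  val_self := fun _ => rfl
  val_other := fun c c' hne => absurd (Subsingleton.elim c c') hne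
  princ := fun _ => h.princ
  prod := by simp

end L

end Fermat.Agent.S44.PL

end
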