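/-
S44 / X / PL, node L3 (owner of the block: helper223; this file: helper127).
Local factorisation `u = ε * ∏ π c ^ m c * g ^ n` at a regular point.
-/
import Fermat.Agent.S44.X.PL.Defs
import Fermat.Agent.S44.X.PL.LocalRoot
import Fermat.Agent.S44.X.PL.Reg

set_option autoImplicit false

noncomputable section

namespace Fermat.Agent.S44.PL

open Fermat.Agent.S18 Fermat.Agent.S18.Abs Fermat.Agent.S36.BP Fermat.Agent.KLB

section L

variable {K₀ F : Type*} [Field K₀] [Field F] [Algebra K₀ F] {A₀ : ValuationSubring K₀}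
  {R : Subring F}

variable {p : ℕ} {ι : Type*} [Fintype ι] {V : ι → ValuationSubring F} {π : ι → F}

theorem RegPt.factor_val_prod (h : RegPt A₀ p R V π) (m : ι → ℤ) (c' : ι) :
    (V c').valuation (∏ c, π c ^ m c) = (V c').valuation (p : F) ^ m c' := by
  classical
  rw [map_prod, Finset.prod_eq_single c']
  · rw [map_zpow₀, h.val_self]
  · intro c _ hc
    rw [map_zpow₀, h.val_other c c' hc, one_zpow]
  · intro hc
    exact absurd (Finset.mem_univ _) hc

theorem RegPt.factor_hor_val (hA : IsUnif A₀ (p : K₀)) (h : RegPt A₀ p R V π)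
    (W : ValuationSubring F) (hK : ∀ a : K₀, algebraMap K₀ F a ∈ W) (hR : ∀ r ∈ R, r ∈ W)
    (c : ι) : W.valuation (π c) = 1 := by
  classical
  have hp0 : (p : F) ≠ 0 := by
    have := (map_ne_zero (algebraMap K₀ F)).2 hA.ne_zero
    rwa [map_natCast] at this
  have hp : W.valuation (p : F) = 1 := by
    have h1 : (p : F) ∈ W := by simpa using hK (p : K₀)
    have h2 : (p : F)⁻¹ ∈ W := by simpa using hK (p : K₀)⁻¹
    apply le_antisymm ((W.valuation_le_one_iff _).2 h1)
    have h3 := (W.valuation_le_one_iff _).2 h2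
    rw [map_inv₀] at h3
    exact (inv_le_one₀ (zero_lt_iff.2 ((map_ne_zero _).2 hp0))).1 h3
  have hle : ∀ c, W.valuation (π c) ≤ 1 := fun c => (W.valuation_le_one_iff _).2 (hR _ (h.mem c))
  have hprod : ∏ c, W.valuation (π c) = 1 := by rw [← map_prod, h.prod, hp]
  by_contra hne
  have hlt : W.valuation (π c) < 1 := lt_of_le_of_ne (hle c) hne
  have hlt' : ∏ c, W.valuation (π c) < 1 := by
    rw [← Finset.mul_prod_erase _ _ (Finset.mem_univ c)]
    calc W.valuation (π c) * ∏ x ∈ Finset.univ.erase c, W.valuation (π x)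
        ≤ W.valuation (π c) * 1 := mul_le_mul_right (Finset.prod_le_one' fun i _ => hle i) _
      _ < 1 := by rwa [mul_one]
  exact absurd hprod hlt'.ne

/-- L3 -/
theorem RegPt.factor (hA : IsUnif A₀ (p : K₀)) (h : RegPt A₀ p R V π) {n : ℕ} {u : F}
    (hu : u ≠ 0) (hd : HorDivAt K₀ R n u) (m : ι → ℤ)
    (hm : ∀ c, (V c).valuation u = (V c).valuation (p : F) ^ m c) :
    ∃ g ε : F, g ≠ 0 ∧ RUnit R ε ∧ u = ε * (∏ c, π c ^ m c) * g ^ n := by
  classical
  obtain ⟨Pm, hPm⟩ : ∃ Pm : F, Pm = ∏ c, π c ^ m c := ⟨_, rfl⟩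
  rw [← hPm]
  have hPm0 : Pm ≠ 0 := by
    rw [hPm]
    exact Finset.prod_ne_zero_iff.2 fun c _ => zpow_ne_zero _ (h.reg_pi_ne_zero c)
  have hu' : ∀ c, (V c).valuation (u / Pm) = 1 := by
    intro c
    rw [map_div₀, hm, hPm, h.factor_val_prod, div_self]
    exact zpow_ne_zero _ ((map_ne_zero _).2 (Reg.unif_ne_zero (h.unif c)))
  have hd' : HorDivAt K₀ R n (u / Pm) := by
    intro W hK hR
    obtain ⟨t, ht0, ht⟩ := hd W hK hR
    refine ⟨t, ht0, ?_⟩
    have h1 : W.valuation Pm = 1 := by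
      rw [hPm, map_prod]
      exact Finset.prod_eq_one fun c _ => by
        rw [map_zpow₀, h.factor_hor_val hA W hK hR c, one_zpow]
    rw [div_mul_eq_mul_div, map_div₀, ht, h1, div_one]
  obtain ⟨c₀⟩ := h.nonempty
  have hlt : (V c₀).valuation (π c₀) < 1 := by
    rw [h.val_self c₀]
    exact Reg.val_unif_lt_one (h.unif c₀)
  obtain ⟨g, hg⟩ := exists_local_root_at hA h.pt V
    ⟨c₀, h.thr c₀, π c₀, h.mem c₀, h.reg_pi_ne_zero c₀, hlt, h.princ c₀⟩
    (fun y hy hV => h.qep y hy fun c => hV c (h.thr c)) hu' hd'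
  by_cases hn : n = 0
  · subst hn
    refine ⟨1, u / Pm, one_ne_zero, by simpa using hg, ?_⟩
    field_simp
  · have hg0 : g ≠ 0 := by
      rintro rfl
      apply hg.1
      rw [zero_pow hn, zero_mul]
    refine ⟨g⁻¹, g ^ n * (u / Pm), inv_ne_zero hg0, hg, ?_⟩
    rw [inv_pow]
    field_simp

end L

end Fermat.Agent.S44.PL

end
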