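/-
S44 / X / PL (owner helper223): second file of definitions.
* `SheetsG` : `Sheets` with an arbitrary uniformiser `ϖ : E` (used at the horizontal places);
* `tw σ W i`: the translate of the valuation ring `W` by `σ ^ i`;
* `HorE1`   : every horizontal place of `E` has an unramified place of `F` above it.
-/
import Fermat.Agent.S44.X.PL.Defs

set_option autoImplicit false

noncomputable section

namespace Fermat.Agent.S44.PL

open Fermat.Agent.S18 Fermat.Agent.S36.BP Fermat.Agent.KLB

variable {E F : Type*} [Field E] [Field F] [Algebra E F]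

/-- The discrete valuation ring `V` of `E` (uniformiser `ϖ`) splits completely in `F`. -/
structure SheetsG (p : ℕ) (σ : F ≃ₐ[E] F) (V : ValuationSubring E) (ϖ : E)
    (W : ZMod p → ValuationSubring F) : Prop where
  lies : ∀ i (z : E), algebraMap E F z ∈ W i ↔ z ∈ V
  shift : ∀ i (z : F), σ z ∈ W i ↔ z ∈ W (i + 1)
  inj : Function.Injective W
  unif : ∀ i, IsUnif (W i) (algebraMap E F ϖ)

/-- The translate `{z | σ ^ i z ∈ W}` of the valuation ring `W`. -/
def tw (σ : F ≃ₐ[E] F) (W : ValuationSubring F) {p : ℕ} (i : ZMod p) : ValuationSubring F :=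
  W.comap (((σ ^ i.val : F ≃ₐ[E] F) : F ≃+* F) : F →+* F)

theorem mem_tw (σ : F ≃ₐ[E] F) (W : ValuationSubring F) {p : ℕ} (i : ZMod p) (z : F) :
    z ∈ tw σ W i ↔ (σ ^ i.val) z ∈ W := Iff.rfl

/-- **Horizontal unramifiedness, elementary form**: above every discrete valuation ring `W` of `E`
containing the constants there is a valuation ring of `F` with the same uniformiser. -/
def HorE1 (K₀ E F : Type*) [Field K₀] [Field E] [Field F] [Algebra K₀ E] [Algebra E F] : Prop :=
  ∀ (W : ValuationSubring E) (t : E), (∀ a : K₀, algebraMap K₀ E a ∈ W) → IsUnif W t →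
    ∃ W' : ValuationSubring F, (∀ z : E, algebraMap E F z ∈ W' ↔ z ∈ W) ∧
      IsUnif W' (algebraMap E F t)

end Fermat.Agent.S44.PL

end
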