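/-
S44 / X / PL, node C5 (Artin): an automorphism `σ` of prime order `p` of `F` over `E` whose fixed
field is `E` makes `F / E` a finite Galois extension of degree `p`.  Mathlib only.
-/
import Mathlib

set_option autoImplicit false

noncomputable section

namespace Fermat.Agent.S44.PL

variable {E F : Type*} [Field E] [Field F] [Algebra E F] {p : ℕ} [Fact p.Prime]

/-- C5 : Artin -/
theorem cyc_of_fixed (σ : F ≃ₐ[E] F) (hpow : σ ^ p = 1) (hσ : σ ≠ 1)
    (hfix : ∀ z, σ z = z → z ∈ (algebraMap E F).range) :
    FiniteDimensional E F ∧ IsGalois E F ∧ Module.finrank E F = p := by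
  classical
  have hp : p.Prime := Fact.out
  have hord : orderOf σ = p := orderOf_eq_prime hpow hσ
  set G : Subgroup (F ≃ₐ[E] F) := Subgroup.zpowers σ with hG
  have hcard : Nat.card G = p := by rw [hG, Nat.card_zpowers, hord]
  have hfin : Finite G := Nat.finite_of_card_ne_zero (by rw [hcard]; exact hp.ne_zero)
  have : Fintype G := Fintype.ofFinite G
  set K : IntermediateField E F := IntermediateField.fixedField G with hKdef
  have hK : K = ⊥ := by
    rw [eq_bot_iff]
    intro z hz
    rw [IntermediateField.mem_bot]
    have h1 : σ z = z := hz ⟨σ, Subgroup.mem_zpowers σ⟩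
    exact hfix z h1
  have h1 : Module.finrank E K = 1 := IntermediateField.finrank_eq_one_iff.2 hK
  have hfd1 : FiniteDimensional E K := Module.finite_of_finrank_pos (by omega)
  have hfd2 : FiniteDimensional K F :=
    inferInstanceAs (FiniteDimensional (FixedPoints.subfield G F) F)
  have h2 : Module.finrank K F = p := by
    rw [← hcard, Nat.card_eq_fintype_card]
    exact FixedPoints.finrank_eq_card G F
  have hfd : FiniteDimensional E F := FiniteDimensional.trans E K F
  refine ⟨hfd, ?_, ?_⟩
  · apply IsGalois.of_fixedField_eq_bot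
    rw [eq_bot_iff]
    intro z hz
    rw [IntermediateField.mem_bot]
    exact hfix z (hz ⟨σ, Subgroup.mem_top σ⟩)
  · rw [← Module.finrank_mul_finrank E K F, h1, h2, one_mul]

end Fermat.Agent.S44.PL

end
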