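/-
S44 / X / PL, node A1 (task 2156): the vertical orders of `u` on the `p` sheets are constant mod `p`.
-/
import Fermat.Agent.S18.Chart.Unif
import Fermat.Agent.S36.BP.Rad
import Fermat.Agent.S36.BP.OrdersAux

set_option autoImplicit false

noncomputable section

namespace Fermat.Agent.S44.PL

open Fermat.Agent.S18 Fermat.Agent.S36.BP

section A

variable {F : Type*} [Field F]

/-- transport of an order along the shift. -/
theorem ord_shift {p : ℕ} (σ : F ≃+* F) (W : ZMod p → ValuationSubring F)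
    (hunif : ∀ i, IsUnif (W i) (p : F)) (hshift : ∀ i z, σ z ∈ W i ↔ z ∈ W (i + 1))
    (i : ZMod p) {z : F} {n : ℤ}
    (hz : (W (i + 1)).valuation z = (W (i + 1)).valuation (p : F) ^ n) :
    (W i).valuation (σ z) = (W i).valuation (p : F) ^ n := by
  have hp : (p : F) ≠ 0 := ord_unif_ne_zero (hunif i)
  have hpn : (p : F) ^ n ≠ 0 := zpow_ne_zero _ hp
  have h1 : (W (i + 1)).valuation (z / (p : F) ^ n) = 1 := by
    rw [map_div₀, map_zpow₀, hz]
    exact div_self (zpow_ne_zero _ (ord_val_unif_ne_zero (hunif (i + 1))))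
  obtain ⟨h0, ha, hb⟩ := val_eq_one_iff.1 h1
  have h2 : (W i).valuation (σ (z / (p : F) ^ n)) = 1 := by
    refine val_eq_one_iff.2 ⟨?_, (hshift i _).2 ha, ?_⟩
    · simpa using h0
    · rw [← map_inv₀]
      exact (hshift i _).2 hb
  have h3 : σ z = (p : F) ^ n * σ (z / (p : F) ^ n) := by
    rw [map_div₀, map_zpow₀, map_natCast, mul_div_cancel₀ _ hpn]
  rw [h3, map_mul, h2, mul_one, map_zpow₀]

/-- A1 -/
theorem ord_mod_const {p : ℕ} [Fact p.Prime] (σ : F ≃+* F) (W : ZMod p → ValuationSubring F)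
    (hunif : ∀ i, IsUnif (W i) (p : F)) (hshift : ∀ i z, σ z ∈ W i ↔ z ∈ W (i + 1))
    {u β c : F} (hu : u ≠ 0) (hβ : β ≠ 0) (hσ : σ u = c * u * β ^ p) {e : ℤ}
    (hc : ∀ i, (W i).valuation c = (W i).valuation (p : F) ^ ((p : ℤ) * e)) :
    ∃ c₀ : ZMod p, ∀ i (n : ℤ), (W i).valuation u = (W i).valuation (p : F) ^ n →
      (n : ZMod p) = c₀ := by
  choose N hN using fun i => ord_exists_val (hunif i) hu
  choose B hB using fun i => ord_exists_val (hunif i) hβ
  have hstep : ∀ i, ((N (i + 1) : ℤ) : ZMod p) = ((N i : ℤ) : ZMod p) := by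
    intro i
    have h1 := ord_shift σ W hunif hshift i (hN (i + 1))
    have hv : (W i).valuation (p : F) ≠ 0 := ord_val_unif_ne_zero (hunif i)
    rw [hσ, map_mul, map_mul, map_pow, hc i, hN i, hB i, ← zpow_natCast, ← zpow_mul,
      ← zpow_add₀ hv, ← zpow_add₀ hv] at h1
    have h2 := ord_zpow_inj (hunif i) h1
    rw [← h2]
    push_cast
    simp
  have hall : ∀ k : ℕ, ((N (k : ZMod p) : ℤ) : ZMod p) = ((N 0 : ℤ) : ZMod p) := by
    intro k
    induction k with
    | zero => simp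
    | succ k ih =>
      rw [Nat.cast_succ, hstep, ih]
  refine ⟨((N 0 : ℤ) : ZMod p), fun i n hn => ?_⟩
  have h1 : n = N i := ord_zpow_inj (hunif i) (hn.symm.trans (hN i))
  rw [h1, ← hall i.val, ZMod.natCast_zmod_val]

end A

end Fermat.Agent.S44.PL
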