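/-
S44 / X / PL, part C : cyclic Galois extensions of prime degree (Mathlib only).
-/
import Mathlib

set_option autoImplicit false

noncomputable section

namespace Fermat.Agent.S44.PL

section C

variable {E F : Type*} [Field E] [Field F] [Algebra E F] [FiniteDimensional E F] [IsGalois E F]
  {p : ℕ} [Fact p.Prime] {σ : F ≃ₐ[E] F}

/-- C1 -/
theorem cyc_pow_eq_one (hdeg : Module.finrank E F = p) (σ : F ≃ₐ[E] F) : σ ^ p = 1 := by
  rw [← hdeg, ← IsGalois.card_aut_eq_finrank]
  exact pow_card_eq_one'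

private theorem cyc_orderOf (hdeg : Module.finrank E F = p) (hσ : σ ≠ 1) : orderOf σ = p :=
  orderOf_eq_prime (cyc_pow_eq_one hdeg σ) hσ

private theorem cyc_exists_pow (hdeg : Module.finrank E F = p) (hσ : σ ≠ 1) (τ : F ≃ₐ[E] F) :
    ∃ i < p, σ ^ i = τ := by
  have hcard : Nat.card (F ≃ₐ[E] F) = p := by rw [IsGalois.card_aut_eq_finrank, hdeg]
  obtain ⟨k, hk⟩ := mem_powers_of_prime_card hcard hσ (g' := τ)
  refine ⟨k % p, Nat.mod_lt _ (Fact.out : p.Prime).pos, ?_⟩
  have h := pow_mod_orderOf σ k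
  rw [cyc_orderOf hdeg hσ] at h
  rw [h]
  exact hk

/-- C2 -/
theorem cyc_trace (hdeg : Module.finrank E F = p) (hσ : σ ≠ 1) (z : F) :
    algebraMap E F (Algebra.trace E F z) = ∑ i ∈ Finset.range p, (σ ^ i) z := by
  classical
  rw [trace_eq_sum_automorphisms]
  symm
  apply Finset.sum_bij (fun i _ => σ ^ i)
  · intro i _
    exact Finset.mem_univ _
  · intro i hi j hj h
    apply pow_injOn_Iio_orderOf (x := σ)
    · rw [cyc_orderOf hdeg hσ]; exact Finset.mem_range.1 hi
    · rw [cyc_orderOf hdeg hσ]; exact Finset.mem_range.1 hj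
    · exact h
  · intro τ _
    obtain ⟨i, hi, h⟩ := cyc_exists_pow hdeg hσ τ
    exact ⟨i, Finset.mem_range.2 hi, h⟩
  · intro i _
    rfl

/-- C3 -/
theorem cyc_fixed (hdeg : Module.finrank E F = p) (hσ : σ ≠ 1) {z : F} (hz : σ z = z) :
    ∃ e : E, algebraMap E F e = z := by
  have hpow : ∀ i : ℕ, (σ ^ i) z = z := by
    intro i
    induction i with
    | zero => simp
    | succ n ih => rw [pow_succ, AlgEquiv.mul_apply, hz, ih]
  have h : z ∈ Set.range (algebraMap E F) := by
    rw [IsGalois.mem_range_algebraMap_iff_fixed]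
    intro τ
    obtain ⟨i, _, rfl⟩ := cyc_exists_pow hdeg hσ τ
    exact hpow i
  exact h

/-- C4 -/
theorem cyc_isIntegral (hdeg : Module.finrank E F = p) (hσ : σ ≠ 1) (O : Subring E)
    (T : Subring F) (hT : ∀ e : E, algebraMap E F e ∈ T → e ∈ O) {z : F}
    (hz : ∀ i : ℕ, (σ ^ i) z ∈ T) : IsIntegral O z := by
  classical
  open Polynomial in
  set f : ℕ → F[X] := fun i => X - C ((σ ^ i) z) with hf
  set P : F[X] := ∏ i ∈ Finset.range p, f i with hP
  have hmonic : P.Monic := Polynomial.monic_prod_of_monic _ _ fun i _ => Polynomial.monic_X_sub_C _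
  -- coefficients in `T`
  have hcoefT : ∀ n, P.coeff n ∈ T := by
    let PT : Polynomial T := ∏ i ∈ Finset.range p, (Polynomial.X - Polynomial.C ⟨(σ ^ i) z, hz i⟩)
    have hmap : PT.map T.subtype = P := by
      rw [Polynomial.map_prod]
      apply Finset.prod_congr rfl
      intro i _
      simp [hf]
    intro n
    rw [← hmap, Polynomial.coeff_map]
    exact (PT.coeff n).2
  -- invariance
  have hinv : P.map (σ : F →+* F) = P := by
    have h1 : P.map (σ : F →+* F) = ∏ i ∈ Finset.range p, f (i + 1) := by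
      rw [hP, Polynomial.map_prod]
      apply Finset.prod_congr rfl
      intro i _
      simp only [hf, Polynomial.map_sub, Polynomial.map_X, Polynomial.map_C]
      rw [pow_succ', AlgEquiv.mul_apply]
      rfl
    have h2 : (∏ i ∈ Finset.range p, f (i + 1)) * f 0 = P * f p := by
      rw [← Finset.prod_range_succ', Finset.prod_range_succ]
    have h3 : f p = f 0 := by
      simp only [hf, cyc_pow_eq_one hdeg σ, pow_zero]
    rw [h3] at h2
    rw [h1]
    exact mul_right_cancel₀ (Polynomial.X_sub_C_ne_zero _) h2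
  have hlift : P ∈ Polynomial.lifts (algebraMap O F) := by
    rw [Polynomial.lifts_iff_coeff_lifts]
    intro n
    have hfix : σ (P.coeff n) = P.coeff n := by
      conv_rhs => rw [← hinv]
      rw [Polynomial.coeff_map]
      rfl
    obtain ⟨e, he⟩ := cyc_fixed hdeg hσ hfix
    exact ⟨⟨e, hT e (he ▸ hcoefT n)⟩, he⟩
  obtain ⟨Q, hQ, _, hQm⟩ := Polynomial.lifts_and_natDegree_eq_and_monic hlift hmonic
  refine ⟨Q, hQm, ?_⟩
  rw [← Polynomial.eval_map, hQ, hP, Polynomial.eval_prod]
  apply Finset.prod_eq_zero (Finset.mem_range.2 (Fact.out : p.Prime).pos)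
  simp [hf]

end C

end Fermat.Agent.S44.PL

end
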