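/-
S44 / X / PL, node H1 (owner of the block: helper223; proof: helper90): the inert case.  A `σ`-stable
unramified valuation ring above `V`, with `p` invertible in `V`, gives a trivial codifferent.
-/
import Fermat.Agent.S44.X.PL.Defs2
import Fermat.Agent.S18.Chart.Unif
import Fermat.Agent.S44.X.PL.Cyc

set_option autoImplicit false

noncomputable section

namespace Fermat.Agent.S44.PL

open Fermat.Agent.S18 Fermat.Agent.S36.BP Fermat.Agent.KLB

section T

variable {E F : Type*} [Field E] [Field F] [Algebra E F] {p : ℕ} [Fact p.Prime]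
  {σ : F ≃ₐ[E] F} {V : ValuationSubring E} {W : ValuationSubring F}

/-- a valuation ring is integrally closed -/
theorem inert_mem_of_isIntegral {e : E} (he : IsIntegral V.toSubring e) : e ∈ V := by
  have h1 : IsIntegral V e := he
  obtain ⟨y, hy⟩ := (IsIntegrallyClosed.isIntegral_iff (R := V) (K := E)).1 h1
  rw [← hy]
  exact y.2

theorem inert_pow_mem (hst : ∀ z, σ z ∈ W ↔ z ∈ W) {z : F} (hz : z ∈ W) (i : ℕ) :
    (σ ^ i) z ∈ W := by
  induction i with
  | zero => simpa using hz
  | succ n ih =>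
    rw [pow_succ', AlgEquiv.mul_apply]
    exact (hst _).2 ih

variable [FiniteDimensional E F] [IsGalois E F]

/-- H1 : the inert case (residue characteristic prime to `p`).
The hypothesis `hp0` has been ADDED to the statement of the skeleton: in characteristic `p` the
hypothesis `hp` is empty (`0⁻¹ = 0 ∈ V`) and the statement fails (Artin-Schreier extension
`y ^ p - y = a / ϖ ^ p` with `a` not a `p`-th power in the residue field: `e = 1`, the valuation ring
is stable, the residue extension is inseparable and the different is `ϖ ^ (p - 1)`). -/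
theorem unr_of_stable (hdeg : Module.finrank E F = p) (hσ : σ ≠ 1) {ϖ : E} (hp0 : (p : E) ≠ 0)
    (hp : ((p : E))⁻¹ ∈ V) (hl : ∀ z : E, algebraMap E F z ∈ W ↔ z ∈ V)
    (hunif : IsUnif W (algebraMap E F ϖ)) (hst : ∀ z, σ z ∈ W ↔ z ∈ W) :
    Unr V.toSubring E F := by
  have hint : ∀ z ∈ W, IsIntegral V.toSubring z := fun z hz =>
    cyc_isIntegral hdeg hσ V.toSubring W.toSubring (fun e he => (hl e).1 he)
      (fun i => inert_pow_mem hst hz i)
  intro y hy
  by_cases hy0 : y = 0
  · rw [hy0]
    exact isIntegral_zero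
  have hϖF : algebraMap E F ϖ ≠ 0 := hunif.ne_zero
  have hϖ0 : ϖ ≠ 0 := fun h0 => hϖF (by rw [h0, map_zero])
  obtain ⟨n, hv, hv'⟩ := hunif.exists_zpow y hy0
  by_cases hn : 0 ≤ n
  · apply hint
    have e : y = y / algebraMap E F ϖ ^ n * algebraMap E F ϖ ^ n := by
      rw [div_mul_cancel₀ _ (zpow_ne_zero _ hϖF)]
    rw [e]
    exact W.mul_mem _ _ hv (hunif.zpow_mem hn)
  · exfalso
    rw [not_le] at hn
    have h1 := hy _ (hint _ hv')
    have e1 : y * (y / algebraMap E F ϖ ^ n)⁻¹ = algebraMap E F (ϖ ^ n) := by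
      rw [inv_div, mul_div_assoc', mul_comm, mul_div_assoc, div_self hy0, mul_one, map_zpow₀]
    rw [e1, Algebra.trace_algebraMap, hdeg, nsmul_eq_mul] at h1
    have h2 : (p : E) * ϖ ^ n ∈ V := inert_mem_of_isIntegral h1
    have h3 : ϖ ^ n ∈ V := by
      have e2 : ϖ ^ n = (p : E)⁻¹ * ((p : E) * ϖ ^ n) := by
        rw [← mul_assoc, inv_mul_cancel₀ hp0, one_mul]
      rw [e2]
      exact V.mul_mem _ _ hp h2
    have h4 : algebraMap E F ϖ ^ n ∈ W := by
      rw [← map_zpow₀]
      exact (hl _).2 h3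
    apply hunif.inv_notMem
    have e3 : (algebraMap E F ϖ)⁻¹ = algebraMap E F ϖ ^ (-n - 1) * algebraMap E F ϖ ^ n := by
      rw [← zpow_add₀ hϖF, ← zpow_neg_one]
      congr 1
      ring
    rw [e3]
    exact W.mul_mem _ _ (hunif.zpow_mem (by omega)) h4

end T

end Fermat.Agent.S44.PL

end
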