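/-
S44 / X / PL, node T5 (owner of the block: helper223; this file: helper127).
A valuation ring with `e = f = 1` is not stable under a nontrivial automorphism.
-/
import Mathlib
import Fermat.Agent.S18.Defs
import Fermat.Agent.S18.Chart.Unif

set_option autoImplicit false

noncomputable section

namespace Fermat.Agent.S44.PL

open Fermat.Agent.S18

section T

variable {E F : Type*} [Field E] [Field F] [Algebra E F]
  {σ : F ≃ₐ[E] F} {W : ValuationSubring F}

theorem NotStable.div_mem {ϖ : F} (hunif : IsUnif W ϖ) {a : F} (ha : W.valuation a < 1) :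
    a / ϖ ∈ W := by
  rcases eq_or_ne a 0 with rfl | ha0
  · rw [zero_div]; exact W.zero_mem
  refine hunif.div_mem ((W.valuation_le_one_iff a).mp ha.le) fun h => ?_
  have h1 := (W.valuation_le_one_iff _).mpr h
  rw [map_inv₀] at h1
  have h2 : W.valuation a ≠ 0 := (Valuation.ne_zero_iff _).mpr ha0
  have h3 : 1 ≤ W.valuation a := (inv_le_one₀ (zero_lt_iff.mpr h2)).mp h1
  exact absurd ha (not_lt.mpr h3)

/-- T5 : a valuation ring with `e = f = 1` is not stable under a nontrivial automorphism -/
theorem not_stable_of_dense (hσ : σ ≠ 1) {ϖ : E} (hunif : IsUnif W (algebraMap E F ϖ))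
    (hdense : ∀ z ∈ W, ∃ e : E, W.valuation (z - algebraMap E F e) < 1) :
    ¬ ∀ z, σ z ∈ W ↔ z ∈ W := by
  intro hst
  have hπ0 : algebraMap E F ϖ ≠ 0 := hunif.ne_zero
  have claim : ∀ n : ℕ, ∀ z ∈ W, (σ z - z) / algebraMap E F ϖ ^ n ∈ W := by
    intro n
    induction n with
    | zero =>
      intro z hz
      rw [pow_zero, div_one]
      exact sub_mem ((hst z).2 hz) hz
    | succ n ih =>
      intro z hz
      obtain ⟨e, he⟩ := hdense z hz
      have h1 : (z - algebraMap E F e) / algebraMap E F ϖ ∈ W := NotStable.div_mem hunif he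
      have h2 := ih _ h1
      have h3 : (σ z - z) / algebraMap E F ϖ ^ (n + 1) =
          (σ ((z - algebraMap E F e) / algebraMap E F ϖ) -
            (z - algebraMap E F e) / algebraMap E F ϖ) / algebraMap E F ϖ ^ n := by
        rw [map_div₀, map_sub, AlgEquiv.commutes, AlgEquiv.commutes, pow_succ]
        field_simp
        ring
      rw [h3]
      exact h2
  have hfix : ∀ z ∈ W, σ z = z := by
    intro z hz
    by_contra hne
    have hd0 : σ z - z ≠ 0 := sub_ne_zero.2 hne
    obtain ⟨m, hm1, hm2⟩ := hunif.exists_zpow _ hd0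
    apply hunif.inv_notMem
    -- `ϖ⁻¹ = (d / ϖ ^ m)⁻¹ * (d / ϖ ^ (m + 1))`
    have hkey : (σ z - z) / algebraMap E F ϖ ^ (m + 1) ∈ W := by
      rcases le_or_gt 0 (m + 1) with hm | hm
      · obtain ⟨k, hk⟩ := Int.eq_ofNat_of_zero_le hm
        rw [hk, zpow_natCast]
        exact claim k z hz
      · have e1 : (σ z - z) / algebraMap E F ϖ ^ (m + 1) =
            (σ z - z) * algebraMap E F ϖ ^ (-(m + 1)) := by
          rw [zpow_neg, div_eq_mul_inv]
        rw [e1]
        exact mul_mem (sub_mem ((hst z).2 hz) hz) (hunif.zpow_mem (by omega))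
    have e2 : (algebraMap E F ϖ)⁻¹ = ((σ z - z) / algebraMap E F ϖ ^ m)⁻¹ *
        ((σ z - z) / algebraMap E F ϖ ^ (m + 1)) := by
      rw [zpow_add_one₀ hπ0]
      have := zpow_ne_zero m hπ0
      field_simp
    rw [e2]
    exact mul_mem hm2 hkey
  apply hσ
  ext z
  rw [AlgEquiv.one_apply]
  rcases W.mem_or_inv_mem z with hz | hz
  · exact hfix z hz
  · have h := hfix _ hz
    rw [map_inv₀] at h
    exact inv_injective h

end T

end Fermat.Agent.S44.PL

end
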