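/-
S44 / X / PL (owner helper223), node R9: `R_(ϖ)` is a discrete valuation ring with uniformiser `ϖ`
(`R` a factorial subring of its fraction field `E`).
-/
import Fermat.Agent.S18.Defs
import Fermat.Agent.S18.Abs.PrimeVal

set_option autoImplicit false

noncomputable section

namespace Fermat.Agent.S44.PL

open Fermat.Agent.S18 Fermat.Agent.S18.Abs

section R9

variable {E : Type*} [Field E] {R : Subring E} [UniqueFactorizationMonoid R] [IsFractionRing R E]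

/-- R9 -/
theorem isUnif_primeVal (ϖ : R) (hϖ : Prime ϖ) : IsUnif (primeValSubring E ϖ hϖ) (ϖ : E) := by
  have hϖ0 : (ϖ : E) ≠ 0 := fun h => hϖ.ne_zero (Subtype.ext h)
  refine ⟨algebraMap_mem_primeValSubring hϖ ϖ, inv_prime_not_mem hϖ, ?_⟩
  intro y hy0
  rcases (primeValSubring E ϖ hϖ).mem_or_inv_mem y with hy | hy
  · obtain ⟨n, u, hu, hu', hu0, e⟩ := exists_pow_mul_of_mem hϖ hy0 hy
    have e' : y = (ϖ : E) ^ n * u := e
    refine ⟨(n : ℤ), ?_⟩
    have h1 : y / (ϖ : E) ^ (n : ℤ) = u := by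
      rw [zpow_natCast, e', mul_div_assoc, mul_comm, div_mul_cancel₀ _ (pow_ne_zero n hϖ0)]
    rw [h1]
    exact ⟨hu, hu'⟩
  · obtain ⟨n, u, hu, hu', hu0, e⟩ := exists_pow_mul_of_mem hϖ (inv_ne_zero hy0) hy
    have e' : y⁻¹ = (ϖ : E) ^ n * u := e
    refine ⟨-(n : ℤ), ?_⟩
    have h1 : y / (ϖ : E) ^ (-(n : ℤ)) = u⁻¹ := by
      rw [zpow_neg, zpow_natCast, div_inv_eq_mul, ← inv_inv y, e', mul_inv, mul_comm,
        ← mul_assoc, mul_inv_cancel₀ (pow_ne_zero n hϖ0), one_mul]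
    rw [h1, inv_inv]
    exact ⟨hu', hu⟩

end R9

end Fermat.Agent.S44.PL

end
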