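/-
S44 / X / PL, node R8 (task 2164, helper274): a height one prime of a regular point is one of the
vertical components `V c`, or it is horizontal.
-/
import Fermat.Agent.S44.X.PL.Defs
import Fermat.Agent.S18.Chart.Unif
import Fermat.Agent.S18.Abs.PrimeVal
import Fermat.Agent.S36.BP.LocalRoot.Abs

set_option autoImplicit false

noncomputable section

namespace Fermat.Agent.S44.PL

open Fermat.Agent.S18 Fermat.Agent.S18.Abs Fermat.Agent.S36.BP Fermat.Agent.KLB

theorem primes_val_lt_one_of_inv_notMem {E : Type*} [Field E] (V : ValuationSubring E) {x : E}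
    (hx0 : x ≠ 0) (hx : x⁻¹ ∉ V) : V.valuation x < 1 := by
  rw [← V.valuation_le_one_iff, map_inv₀, not_le] at hx
  exact (one_lt_inv₀ (zero_lt_iff.2 ((map_ne_zero _).2 hx0))).1 hx

variable {K₀ E : Type*} [Field K₀] [Field E] [Algebra K₀ E] {A₀ : ValuationSubring K₀}
  {R : Subring E} {p : ℕ} {ι : Type*} [Fintype ι] {V : ι → ValuationSubring E} {π : ι → E}

/-- R8 -/
theorem RegPt.primeVal_cases (hA : IsUnif A₀ (p : K₀)) (h : RegPt A₀ p R V π)
    [UniqueFactorizationMonoid R] [IsFractionRing R E] (ϖ : R) (hϖ : Prime ϖ) :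
    (∃ c, primeValSubring E ϖ hϖ = V c) ∨
      (∀ a : K₀, algebraMap K₀ E a ∈ primeValSubring E ϖ hϖ) := by
  classical
  set W := primeValSubring E ϖ hϖ with hW
  have hRW : ∀ r ∈ R, r ∈ W := fun r hr => algebraMap_mem_primeValSubring hϖ ⟨r, hr⟩
  have hp0 : (p : K₀) ≠ 0 := hA.ne_zero
  have hp0E : (p : E) ≠ 0 := by
    have := (map_ne_zero (algebraMap K₀ E)).2 hp0
    rwa [map_natCast] at this
  have hpR : (p : E) ∈ R := natCast_mem R p
  by_cases hq : ((p : E))⁻¹ ∈ W
  · right
    intro a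
    obtain ⟨r, hr⟩ := hA.exists_pow_mul_mem a
    have h1 : algebraMap K₀ E a = ((p : E))⁻¹ ^ r * algebraMap K₀ E ((p : K₀) ^ r * a) := by
      rw [map_mul, map_pow, map_natCast, inv_pow]
      field_simp
    rw [h1]
    exact W.mul_mem _ _ (W.pow_mem hq r) (hRW _ (h.pt.const_mem _ hr))
  · left
    have hdvd : ϖ ∣ (⟨(p : E), hpR⟩ : R) := by
      by_contra hnd
      exact hq (inv_mem_primeValSubring hϖ hnd)
    have hprod : (⟨(p : E), hpR⟩ : R) = ∏ c, (⟨π c, h.mem c⟩ : R) := by
      apply Subtype.ext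
      have h1 : ((∏ c, (⟨π c, h.mem c⟩ : R) : R) : E) = ∏ c, π c :=
        map_prod R.subtype (fun c => (⟨π c, h.mem c⟩ : R)) Finset.univ
      rw [h1]
      exact h.prod.symm
    rw [hprod] at hdvd
    obtain ⟨c, -, m, hm⟩ := (hϖ.dvd_finsetProd_iff _).1 hdvd
    refine ⟨c, ?_⟩
    have hm' : π c = (ϖ : E) * (m : E) := congrArg Subtype.val hm
    have hπlt : (V c).valuation (π c) < 1 := by
      rw [h.val_self c]
      exact primes_val_lt_one_of_inv_notMem _ hp0E (h.unif c).inv_notMem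
    have hπ0 : π c ≠ 0 := by
      intro h0
      have h1 := h.val_self c
      rw [h0, map_zero] at h1
      exact (map_ne_zero (V c).valuation).2 hp0E h1.symm
    have hpc : ϖ ∈ LocalRoot.contr R (V c) (h.thr c) := by
      rw [LocalRoot.mem_contr]
      by_contra hge
      have h1 : (V c).valuation (ϖ : E) = 1 :=
        le_antisymm (((V c).valuation_le_one_iff _).2 ((h.thr c).le _ ϖ.2)) (not_lt.1 hge)
      have h2 : (V c).valuation (m : E) < 1 := by
        rw [hm', map_mul, h1, one_mul] at hπlt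
        exact hπlt
      have h3 : (m : E) / π c ∈ R := h.princ c _ m.2 h2
      apply hϖ.not_isUnit
      refine IsUnit.of_mul_eq_one (⟨_, h3⟩ : R) (Subtype.ext ?_)
      show (ϖ : E) * ((m : E) / π c) = 1
      rw [← mul_div_assoc, ← hm', div_self hπ0]
    have hle := LocalRoot.le_primeValSubring_of_mem_contr (h.thr c) hϖ hpc
    refine SetLike.ext fun z => ⟨fun hz => ?_, fun hz => hle z hz⟩
    by_contra hzV
    have hz0 : z ≠ 0 := by
      rintro rfl
      exact hzV (V c).zero_mem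
    have hzi : z⁻¹ ∈ V c := ((V c).mem_or_inv_mem z).resolve_left hzV
    obtain ⟨n, hn1, hn2⟩ := (h.unif c).exists_unit_div_pow hzi (inv_ne_zero hz0)
    obtain ⟨k, rfl⟩ : ∃ k, n = k + 1 := by
      rcases n with _ | k
      · exfalso
        apply hzV
        simpa using hn2
      · exact ⟨k, rfl⟩
    apply hq
    have h4 : ((p : E))⁻¹ = (p : E) ^ k * (z⁻¹ / (p : E) ^ (k + 1)) * z := by
      rw [pow_succ]
      field_simp
    rw [h4]
    exact W.mul_mem _ _ (W.mul_mem _ _ (W.pow_mem (hRW _ hpR) k) (hle _ hn1)) hz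

end Fermat.Agent.S44.PL

end
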