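/-
S44 / X / PL, part R (task X-PL-R): ring theory of a regular point `RegPt A₀ p R V π`:
`R` is a factorial, integrally closed domain with fraction field `E`; the `π c` are prime elements,
`V c` is the localisation of `R` at `(π c)` and `R / (π c)` is a principal ideal ring.
-/
import Fermat.Agent.S44.X.PL.Defs
import Fermat.Agent.S36.BP.Rad
import Fermat.Agent.S36.BP.Approx
import Fermat.Agent.S36.BP.LocalRoot.Ufd

set_option autoImplicit false

noncomputable section

namespace Fermat.Agent.S44.PL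

open Fermat.Agent.S18 Fermat.Agent.S18.Abs Fermat.Agent.S36.BP Fermat.Agent.KLB

section Rg

variable {K₀ E : Type*} [Field K₀] [Field E] [Algebra K₀ E] {A₀ : ValuationSubring K₀}
  {R : Subring E} {p : ℕ} {ι : Type*} [Fintype ι] {V : ι → ValuationSubring E} {π : ι → E}

theorem RegPt.val_pi_lt (h : RegPt A₀ p R V π) (c : ι) : (V c).valuation (π c) < 1 := by
  rw [h.val_self c]
  exact approx_val_unif_lt_one (h.unif c)

theorem RegPt.pi_ne_zero (h : RegPt A₀ p R V π) (c : ι) : π c ≠ 0 := by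
  intro h0
  have h1 := h.val_self c
  rw [h0, map_zero] at h1
  exact (h.unif c).ne_zero ((map_eq_zero _).1 h1.symm)

theorem RegPt.princ' (h : RegPt A₀ p R V π) (c : ι) : Princ R (V c) :=
  ⟨π c, h.mem c, h.pi_ne_zero c, h.val_pi_lt c, h.princ c⟩

/-- R1 -/
theorem RegPt.isFractionRing (h : RegPt A₀ p R V π) : IsFractionRing R E := by
  obtain ⟨c⟩ := h.nonempty
  exact LocalRoot.isFractionRing_of_through (h.thr c)

/-- R2 -/
theorem RegPt.ufd (h : RegPt A₀ p R V π) : UniqueFactorizationMonoid R := by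
  obtain ⟨c⟩ := h.nonempty
  exact LocalRoot.ufd_of_through_princ h.pt (h.thr c) (h.princ' c)

/-- R3 -/
theorem RegPt.isIntegrallyClosed (h : RegPt A₀ p R V π) : IsIntegrallyClosed R := by
  have := h.isFractionRing
  rw [isIntegrallyClosed_iff E]
  intro x hx
  exact ⟨⟨x, h.pt.intClosed x hx⟩, rfl⟩

/-- divisibility by `π c` is the vanishing on the component `V c`. -/
theorem RegPt.dvd_iff (h : RegPt A₀ p R V π) (c : ι) (r : R) :
    (⟨π c, h.mem c⟩ : R) ∣ r ↔ (V c).valuation (r : E) < 1 := by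
  constructor
  · rintro ⟨s, rfl⟩
    rw [Subring.coe_mul, map_mul]
    exact mul_lt_one_of_nonneg_of_lt_one_left zero_le (h.val_pi_lt c)
      (LocalRoot.through_valuation_le_one (h.thr c) s)
  · intro hr
    refine ⟨⟨_, h.princ c r r.2 hr⟩, Subtype.ext ?_⟩
    show (r : E) = π c * ((r : E) / π c)
    rw [mul_div_cancel₀ _ (h.pi_ne_zero c)]

theorem RegPt.span_eq_contr (h : RegPt A₀ p R V π) (c : ι) :
    Ideal.span {(⟨π c, h.mem c⟩ : R)} = LocalRoot.contr R (V c) (h.thr c) := by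
  ext r
  rw [Ideal.mem_span_singleton, h.dvd_iff c, LocalRoot.mem_contr]

/-- R4 -/
theorem RegPt.prime (h : RegPt A₀ p R V π) (c : ι) : Prime (⟨π c, h.mem c⟩ : R) := by
  have h0 : (⟨π c, h.mem c⟩ : R) ≠ 0 := fun e => h.pi_ne_zero c (congrArg Subtype.val e)
  rw [← Ideal.span_singleton_prime h0, h.span_eq_contr c]
  exact LocalRoot.contr_isPrime (h.thr c)

/-- R5 -/
theorem RegPt.isLocSub (h : RegPt A₀ p R V π) (c : ι) :
    IsLocSub (ndvd (h.prime c)) (V c).toSubring := by
  intro a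
  constructor
  · intro ha
    obtain ⟨s, hs, hs1, hsa⟩ := (h.thr c).loc a ha
    refine ⟨⟨s, hs⟩, ?_, ⟨_, hsa⟩, rfl⟩
    rw [mem_ndvd, h.dvd_iff c]
    exact not_lt.2 hs1.ge
  · rintro ⟨d, hd, s, e⟩
    rw [mem_ndvd, h.dvd_iff c, not_lt] at hd
    have hd1 : (V c).valuation (d : E) = 1 :=
      le_antisymm (LocalRoot.through_valuation_le_one (h.thr c) d) hd
    have e' : (d : E) * a = (s : E) := e
    show a ∈ V c
    rw [← ValuationSubring.valuation_le_one_iff]
    have h2 := congrArg (V c).valuation e'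
    rw [map_mul, hd1, one_mul] at h2
    rw [h2]
    exact LocalRoot.through_valuation_le_one (h.thr c) s

/-- R6 -/
theorem RegPt.pir (h : RegPt A₀ p R V π) (c : ι) :
    IsPrincipalIdealRing (R ⧸ Ideal.span {(⟨π c, h.mem c⟩ : R)}) := by
  have hloc : IsLocalRing R := LocalRoot.isLocalRing_of_add_rad h.pt.add_rad
  have hnoeth : IsNoetherianRing R := h.pt.noeth
  set ϖ : R := ⟨π c, h.mem c⟩ with hϖ
  have hspan : Ideal.span {ϖ} = LocalRoot.contr R (V c) (h.thr c) := h.span_eq_contr c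
  have hπm : ϖ ∈ IsLocalRing.maximalIdeal R := by
    rw [IsLocalRing.mem_maximalIdeal, mem_nonunits_iff]
    exact (h.prime c).not_isUnit
  have hprime : (Ideal.span {ϖ}).IsPrime := hspan ▸ LocalRoot.contr_isPrime (h.thr c)
  have hdom : IsDomain (R ⧸ Ideal.span {ϖ}) := (Ideal.Quotient.isDomain_iff_prime _).2 hprime
  have hlocq : IsLocalRing (R ⧸ Ideal.span {ϖ}) :=
    IsLocalRing.of_surjective' (Ideal.Quotient.mk _) Ideal.Quotient.mk_surjective
  have hprin : (IsLocalRing.maximalIdeal (R ⧸ Ideal.span {ϖ})).IsPrincipal := by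
    obtain ⟨t, ht, hdvr⟩ := (h.thr c).dvr
    let τ : R := ⟨t, ht.1⟩
    have hτ : ¬ IsUnit τ := (LocalRoot.coe_mem_rad_iff τ).1 ht
    refine ⟨⟨Ideal.Quotient.mk _ τ, ?_⟩⟩
    apply le_antisymm
    · intro ybar hy
      obtain ⟨y, rfl⟩ := Ideal.Quotient.mk_surjective ybar
      have hyrad : (y : E) ∈ rad R := by
        rw [LocalRoot.coe_mem_rad_iff]
        intro hu
        rw [IsLocalRing.mem_maximalIdeal, mem_nonunits_iff] at hy
        exact hy (hu.map _)
      obtain ⟨r, hr, hlt⟩ := hdvr _ hyrad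
      have h1 : y - (⟨r, hr⟩ : R) * τ ∈ Ideal.span {ϖ} := by
        rw [hspan]
        exact hlt
      rw [Submodule.mem_span_singleton]
      refine ⟨Ideal.Quotient.mk _ ⟨r, hr⟩, ?_⟩
      rw [smul_eq_mul, ← map_mul]
      exact (Ideal.Quotient.eq.2 h1).symm
    · rw [Submodule.span_singleton_le_iff_mem, IsLocalRing.mem_maximalIdeal, mem_nonunits_iff]
      intro hu
      obtain ⟨sbar, hs⟩ := hu.exists_right_inv
      obtain ⟨s, rfl⟩ := Ideal.Quotient.mk_surjective sbar
      rw [← map_mul, ← map_one (Ideal.Quotient.mk (Ideal.span {ϖ})), Ideal.Quotient.eq] at hs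
      have h2 : τ * s - 1 ∈ IsLocalRing.maximalIdeal R :=
        (Ideal.span_singleton_le_iff_mem _).2 hπm hs
      have h3 : τ * s ∈ IsLocalRing.maximalIdeal R :=
        Ideal.mul_mem_right _ _ ((IsLocalRing.mem_maximalIdeal _).2 hτ)
      have h4 := Ideal.sub_mem _ h3 h2
      rw [sub_sub_cancel] at h4
      exact (Ideal.ne_top_iff_one _).1 (IsLocalRing.maximalIdeal.isMaximal R).ne_top h4
  exact ((tfae_of_isNoetherianRing_of_isLocalRing_of_isDomain (R ⧸ Ideal.span {ϖ})).out 0 4).mpr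
    hprin

/-- R7 -/
theorem RegPt.pi_mem_rad (h : RegPt A₀ p R V π) (c : ι) : π c ∈ rad R :=
  mem_rad_of_val_lt (h.thr c).le (h.mem c) (h.val_pi_lt c)

end Rg

end Fermat.Agent.S44.PL

end
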