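/-
S44 / X / PL (owner helper223), task X-PL-T: translates of a valuation ring by a cyclic group of
prime order.
-/
import Fermat.Agent.S44.X.PL.Defs2

set_option autoImplicit false
set_option linter.unusedSectionVars false

noncomputable section

namespace Fermat.Agent.S44.PL

open Fermat.Agent.S18 Fermat.Agent.S36.BP Fermat.Agent.KLB

section T

variable {E F : Type*} [Field E] [Field F] [Algebra E F] {p : ℕ} [Fact p.Prime]
  {σ : F ≃ₐ[E] F} {V : ValuationSubring E} {W : ValuationSubring F}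

/-- T0 -/
theorem tw_zero (σ : F ≃ₐ[E] F) (W : ValuationSubring F) : tw σ W (0 : ZMod p) = W := by
  ext z
  rw [mem_tw, ZMod.val_zero, pow_zero]
  rfl

/-- T1 -/
theorem tw_lies (σ : F ≃ₐ[E] F) (hl : ∀ z : E, algebraMap E F z ∈ W ↔ z ∈ V) (i : ZMod p)
    (z : E) : algebraMap E F z ∈ tw σ W i ↔ z ∈ V := by
  rw [mem_tw, AlgEquiv.commutes]
  exact hl z

/-- T2 -/
theorem tw_unif (σ : F ≃ₐ[E] F) {ϖ : E} (h : IsUnif W (algebraMap E F ϖ)) (i : ZMod p) :
    IsUnif (tw σ W i) (algebraMap E F ϖ) := by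
  refine ⟨?_, ?_, ?_⟩
  · rw [mem_tw, AlgEquiv.commutes]
    exact h.mem
  · rw [mem_tw, map_inv₀, AlgEquiv.commutes]
    exact h.inv_notMem
  · intro y hy
    obtain ⟨n, h1, h2⟩ := h.exists_zpow ((σ ^ i.val) y)
      (fun h0 => hy ((map_eq_zero_iff _ (σ ^ i.val).injective).1 h0))
    refine ⟨n, ?_, ?_⟩
    · rw [mem_tw, map_div₀, map_zpow₀, AlgEquiv.commutes]
      exact h1
    · rw [mem_tw, map_inv₀, map_div₀, map_zpow₀, AlgEquiv.commutes]
      exact h2

/-- T3 -/
theorem tw_shift (hpow : σ ^ p = 1) (W : ValuationSubring F) (i : ZMod p) (z : F) :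
    σ z ∈ tw σ W i ↔ z ∈ tw σ W (i + 1) := by
  have h1 : σ ^ (i + 1).val = σ ^ (i.val + 1) := by
    rw [ZMod.val_add, ZMod.val_one, ← pow_eq_pow_mod _ hpow]
  rw [mem_tw, mem_tw, h1, pow_succ]
  rfl

omit [Fact p.Prime] in
/-- the exponents `n` such that `σ ^ n` stabilises `W` are stable under multiples -/
theorem tw_stable_mul {c : ℕ} (h : ∀ z, (σ ^ c) z ∈ W ↔ z ∈ W) (m : ℕ) :
    ∀ z, (σ ^ (c * m)) z ∈ W ↔ z ∈ W := by
  induction m with
  | zero =>
    intro z
    rw [Nat.mul_zero, pow_zero]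
    rfl
  | succ m ih =>
    intro z
    rw [Nat.mul_succ, pow_add, ← ih z, ← h ((σ ^ (c * m)) z)]
    have : σ ^ (c * m) * σ ^ c = σ ^ c * σ ^ (c * m) := by rw [← pow_add, ← pow_add, add_comm]
    rw [this]
    rfl

/-- T4 -/
theorem tw_inj (hpow : σ ^ p = 1) (hns : ¬ ∀ z, σ z ∈ W ↔ z ∈ W) :
    Function.Injective (tw σ W : ZMod p → ValuationSubring F) := by
  have hp : p.Prime := Fact.out
  intro i j hij
  by_contra hne
  apply hns
  have ha : i.val < p := ZMod.val_lt i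
  have hb : j.val < p := ZMod.val_lt j
  have hab : i.val ≠ j.val := fun h => hne (ZMod.val_injective p h)
  -- `σ ^ c` stabilises `W`, `c = b + p - a`
  have hc : ∀ z, (σ ^ (j.val + (p - i.val))) z ∈ W ↔ z ∈ W := by
    intro z
    have h1 : (σ ^ (p - i.val)) z ∈ tw σ W i ↔ (σ ^ (p - i.val)) z ∈ tw σ W j := by rw [hij]
    rw [mem_tw, mem_tw] at h1
    have h2 : (σ ^ i.val) ((σ ^ (p - i.val)) z) = z := by
      have : σ ^ i.val * σ ^ (p - i.val) = 1 := by
        rw [← pow_add, Nat.add_sub_cancel' ha.le, hpow]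
      show (σ ^ i.val * σ ^ (p - i.val)) z = z
      rw [this]
      rfl
    rw [h2] at h1
    rw [pow_add]
    exact h1.symm
  have hcop : Nat.Coprime (j.val + (p - i.val)) p := by
    rw [Nat.coprime_comm, hp.coprime_iff_not_dvd]
    intro hd
    have := Nat.eq_of_dvd_of_lt_two_mul (by omega) hd (by omega)
    omega
  obtain ⟨m, -, hm⟩ := Nat.exists_mul_mod_eq_one_of_coprime hcop hp.one_lt
  have h3 := tw_stable_mul hc m
  rw [pow_eq_pow_mod _ hpow, hm, pow_one] at h3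
  exact h3

end T

end Fermat.Agent.S44.PL

end
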