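/-
S44 / X / PL, node U1 (task X-PL-U1; statement by helper223, proof helper283).

`Unr` over a factorial ring is a codimension one condition: it is enough to check it for the
discrete valuation rings `R_(ϖ)`, `ϖ` running through the prime elements of `R`.
-/
import Fermat.Agent.S44.X.PL.Defs
import Fermat.Agent.S18.Abs.PrimeVal
import Fermat.Agent.KLB.Abs.Purity

set_option autoImplicit false

noncomputable section

namespace Fermat.Agent.S44.PL

open Fermat.Agent.S18 Fermat.Agent.S18.Abs Fermat.Agent.KLB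

namespace UfdUnr

variable {E : Type*} [Field E]

/-- `R = ⋂ R_(ϖ)` for a factorial ring. -/
theorem mem_of_forall_prime {R : Subring E} [UniqueFactorizationMonoid R] [IsFractionRing R E]
    {a : E} (h : ∀ (ϖ : R) (hϖ : Prime ϖ), a ∈ primeValSubring E ϖ hϖ) : a ∈ R := by
  obtain ⟨n, d, hnd, rfl⟩ := IsFractionRing.exists_reduced_fraction R a
  by_cases hd : IsUnit (d : R)
  · obtain ⟨u, hu⟩ := hd
    have e : IsLocalization.mk' E n d = algebraMap R E (n * ↑u⁻¹) := by
      rw [IsLocalization.mk'_eq_iff_eq_mul, ← map_mul, ← hu, mul_assoc, Units.inv_mul, mul_one]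
    rw [e]
    exact (n * ↑u⁻¹).2
  · exfalso
    obtain ⟨ϖ, hirr, hdvd⟩ :=
      WfDvdMonoid.exists_irreducible_factor hd (nonZeroDivisors.ne_zero d.2)
    have hϖ : Prime ϖ := UniqueFactorizationMonoid.irreducible_iff_prime.mp hirr
    obtain ⟨a', b, hb, e⟩ := h ϖ hϖ
    have e' : n * b = a' * d := by
      apply IsFractionRing.injective R E
      rw [map_mul, map_mul, ← e, mul_right_comm, IsLocalization.mk'_spec]
    have h1 : ϖ ∣ n * b := e' ▸ hdvd.mul_left a'
    rcases hϖ.dvd_or_dvd h1 with h2 | h2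
    · exact hϖ.not_isUnit (hnd h2 hdvd)
    · exact hb h2

theorem isLocSub_self (R : Subring E) : IsLocSub (Submonoid.powers (1 : R)) R := by
  intro a
  constructor
  · intro ha
    exact ⟨1, Submonoid.mem_powers _, ⟨a, ha⟩, by rw [map_one, one_mul]; rfl⟩
  · rintro ⟨_, ⟨k, rfl⟩, s, hs⟩
    replace hs : algebraMap R E (1 ^ k) * a = algebraMap R E s := hs
    rw [one_pow, map_one, one_mul] at hs
    rw [hs]
    exact s.2

theorem isLocSub_primeVal {R : Subring E} [UniqueFactorizationMonoid R] [IsFractionRing R E]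
    (ϖ : R) (hϖ : Prime ϖ) : IsLocSub (ndvd hϖ) (primeValSubring E ϖ hϖ).toSubring := by
  intro a
  constructor
  · rintro ⟨s, d, hd, e⟩
    exact ⟨d, hd, s, by rw [mul_comm]; exact e⟩
  · rintro ⟨d, hd, s, e⟩
    exact ⟨s, d, hd, by rw [mul_comm]; exact e⟩

end UfdUnr

section U

variable {E F : Type*} [Field E] [Field F] [Algebra E F] [FiniteDimensional E F]

/-- U1 -/
theorem unr_of_forall_prime {R : Subring E} [UniqueFactorizationMonoid R] [IsFractionRing R E]
    (h : ∀ (ϖ : R) (hϖ : Prime ϖ), Unr (primeValSubring E ϖ hϖ).toSubring E F) : Unr R E F := by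
  intro y hy
  have hR := UfdUnr.isLocSub_self R
  have hT1 : Submonoid.powers (1 : R) ≤ nonZeroDivisors R :=
    PurityAux.powers_le_nonZeroDivisors' one_ne_zero
  have hyϖ : ∀ (ϖ : R) (hϖ : Prime ϖ), IsIntegral (primeValSubring E ϖ hϖ).toSubring y := by
    intro ϖ hϖ
    refine h ϖ hϖ y (PurityAux.trace_isIntegral_of_le hR (UfdUnr.isLocSub_primeVal ϖ hϖ) hT1
      (PurityAux.ndvd_le_nonZeroDivisors hϖ) (fun a ha => ?_) hy)
    exact algebraMap_mem_primeValSubring hϖ (⟨a, ha⟩ : R)
  have hyE : IsIntegral E y := Algebra.IsIntegral.isIntegral y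
  have hc : ∀ i, (minpoly E y).coeff i ∈ R := fun i =>
    UfdUnr.mem_of_forall_prime fun ϖ hϖ =>
      (UfdUnr.isLocSub_primeVal ϖ hϖ).mem_of_isIntegral (PurityAux.ndvd_le_nonZeroDivisors hϖ)
        (isIntegral_coeff_minpoly _ (hyϖ ϖ hϖ) i)
  have hsub : (↑(minpoly E y).coeffs : Set E) ⊆ R := by
    intro a ha
    obtain ⟨i, -, rfl⟩ := Polynomial.mem_coeffs_iff.mp (Finset.mem_coe.mp ha)
    exact hc i
  refine ⟨(minpoly E y).toSubring R hsub, ?_, ?_⟩
  · exact (Polynomial.monic_toSubring _ _ _).mpr (minpoly.monic hyE)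
  · have h5 : ((minpoly E y).toSubring R hsub).map (algebraMap R E) = minpoly E y :=
      Polynomial.map_toSubring _ _ _
    have h6 := minpoly.aeval E y
    rw [← h5, Polynomial.aeval_def, Polynomial.eval₂_map] at h6
    exact h6

end U

end Fermat.Agent.S44.PL

end
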