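/-
S44, node X, block PL (owner helper223): ASSEMBLY.

* `RegPt.unr'`       : the codifferent of the integral closure of a regular point is trivial;
* `RegPt.lift`       : the points of the cover above a regular point are regular;
* `RegPt.exists_lift`: purity;
* `pl_main'`         : the EXPORT (slope formula on the cyclic cover, case `p ∣ v(a)`).
-/
import Fermat.Agent.S44.X.PL.Defs2
import Fermat.Agent.S44.X.PL.Arith
import Fermat.Agent.S44.X.PL.Artin
import Fermat.Agent.S44.X.PL.Cyc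
import Fermat.Agent.S44.X.PL.Factor
import Fermat.Agent.S44.X.PL.Inert
import Fermat.Agent.S44.X.PL.NotStable
import Fermat.Agent.S44.X.PL.PrimeUnif
import Fermat.Agent.S44.X.PL.Primes
import Fermat.Agent.S44.X.PL.Reg
import Fermat.Agent.S44.X.PL.Ring
import Fermat.Agent.S44.X.PL.Tw
import Fermat.Agent.S44.X.PL.UfdUnr
import Fermat.Agent.S44.X.PL.Sheets.Basic
import Fermat.Agent.S44.X.PL.Sheets.General
import Fermat.Agent.S44.X.PL.Sheets.Unr
import Fermat.Agent.S44.X.PL.Pur.Basis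
import Fermat.Agent.S44.X.PL.Pur.TraceOne
import Fermat.Agent.S44.X.PL.Pur.SepElt
import Fermat.Agent.S44.X.PL.Pur.Max
import Fermat.Agent.S44.X.PL.Pur.LiftDense
import Fermat.Agent.S44.X.PL.Pur.LiftPt
import Fermat.Agent.S44.X.PL.Pur.LiftThrough
import Fermat.Agent.S44.X.PL.Pur.LiftPrinc

set_option autoImplicit false

noncomputable section

namespace Fermat.Agent.S44.PL

open Fermat.Agent.S18 Fermat.Agent.S18.Abs Fermat.Agent.S36.BP Fermat.Agent.KLB

section Aux

variable {K₀ F : Type*} [Field K₀] [Field F] [Algebra K₀ F] {A₀ : ValuationSubring K₀}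

theorem main_natCast_unit {p : ℕ} (hp : p.Prime) (hA : IsUnif A₀ (p : K₀)) {n : ℕ}
    (hn : ¬ p ∣ n) : A₀.valuation (n : K₀) = 1 := by
  have hq : A₀.valuation (p : K₀) < 1 := approx_val_unif_lt_one hA
  have hn1 : A₀.valuation (n : K₀) ≤ 1 := (A₀.valuation_le_one_iff _).mpr (natCast_mem A₀ n)
  refine le_antisymm hn1 (not_lt.mp fun hlt => ?_)
  have hcop : IsCoprime (n : ℤ) (p : ℤ) :=
    Nat.isCoprime_iff_coprime.mpr ((Nat.Prime.coprime_iff_not_dvd hp).mpr hn).symm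
  obtain ⟨a, b, hab⟩ := hcop
  have h1 : ((a : K₀)) * (n : K₀) + (b : K₀) * (p : K₀) = 1 := by
    exact_mod_cast congrArg (fun z : ℤ => (z : K₀)) hab
  have ha : A₀.valuation (a : K₀) ≤ 1 := (A₀.valuation_le_one_iff _).mpr (intCast_mem A₀ a)
  have hb' : A₀.valuation (b : K₀) ≤ 1 := (A₀.valuation_le_one_iff _).mpr (intCast_mem A₀ b)
  have h2 : A₀.valuation ((a : K₀) * (n : K₀) + (b : K₀) * (p : K₀)) < 1 := by
    refine lt_of_le_of_lt (A₀.valuation.map_add _ _) (max_lt ?_ ?_)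
    · rw [map_mul]
      exact lt_of_le_of_lt (mul_le_of_le_one_left' ha) hlt
    · rw [map_mul]
      exact lt_of_le_of_lt (mul_le_of_le_one_left' hb') hq
  rw [h1, map_one] at h2
  exact lt_irrefl _ h2

theorem main_val_const {p : ℕ} (hA : IsUnif A₀ (p : K₀)) {W : ValuationSubring F}
    (hW : ∀ a ∈ A₀, algebraMap K₀ F a ∈ W) {a : K₀} {m : ℤ}
    (ha : A₀.valuation a = A₀.valuation (p : K₀) ^ m) :
    W.valuation (algebraMap K₀ F a) = W.valuation (p : F) ^ m := by
  have hp0 : (p : K₀) ≠ 0 := hA.ne_zero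
  have hv0 : A₀.valuation (p : K₀) ≠ 0 := (A₀.valuation.ne_zero_iff).2 hp0
  have h1 : A₀.valuation (a / (p : K₀) ^ m) = 1 := by
    rw [map_div₀, map_zpow₀, ha, div_self (zpow_ne_zero _ hv0)]
  have h2 := ord_val_const_unit (F := F) hW h1
  rw [map_div₀, map_zpow₀, map_natCast, map_div₀, map_zpow₀] at h2
  have hpF : (p : F) ≠ 0 := by
    have := (map_ne_zero (algebraMap K₀ F)).2 hp0
    rwa [map_natCast] at this
  have hvF : W.valuation (p : F) ≠ 0 := (W.valuation.ne_zero_iff).2 hpF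
  rwa [div_eq_one_iff_eq (zpow_ne_zero _ hvF)] at h2

theorem horDivAt_of_horDiv {n : ℕ} {u : F} (h : HorDiv K₀ n u) (R : Subring F) : HorDivAt K₀ R n u :=
  fun W hK _ => h W hK

end Aux

section T

variable {E F : Type*} [Field E] [Field F] [Algebra E F] {p : ℕ} [Fact p.Prime]
  {σ : F ≃ₐ[E] F} {V : ValuationSubring E} {W : ValuationSubring F}

/-- one sheet with `e = f = 1` gives the `p` sheets -/
theorem sheets_of_one (hpow : σ ^ p = 1) (hσ : σ ≠ 1)
    (hl : ∀ z : E, algebraMap E F z ∈ W ↔ z ∈ V) (hunif : IsUnif W (p : F))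
    (hdense : ∀ z ∈ W, ∃ e : E, W.valuation (z - algebraMap E F e) < 1) :
    Sheets p σ V (tw σ W) where
  lies := tw_lies σ hl
  shift := tw_shift hpow W
  inj := tw_inj hpow (not_stable_of_dense hσ (ϖ := (p : E)) (by rwa [map_natCast]) hdense)
  unif := fun i => by
    have := tw_unif σ (ϖ := (p : E)) (W := W) (by rwa [map_natCast]) i
    rwa [map_natCast] at this

variable [FiniteDimensional E F] [IsGalois E F]

/-- an unramified place in residue characteristic prime to `p` has trivial codifferent -/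
theorem unr_of_unram (hdeg : Module.finrank E F = p) (hpow : σ ^ p = 1) (hσ : σ ≠ 1) {ϖ : E}
    (hp0 : (p : E) ≠ 0) (hp : ((p : E))⁻¹ ∈ V) (hl : ∀ z : E, algebraMap E F z ∈ W ↔ z ∈ V)
    (hunif : IsUnif W (algebraMap E F ϖ)) : Unr V.toSubring E F := by
  by_cases hst : ∀ z, σ z ∈ W ↔ z ∈ W
  · exact unr_of_stable hdeg hσ hp0 hp hl hunif hst
  · exact SheetsG.unr hdeg hσ (ϖ := ϖ) (W := tw σ W)
      ⟨tw_lies σ hl, tw_shift hpow W, tw_inj hpow hst, tw_unif σ hunif⟩

end T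

section P

variable {K₀ E F : Type*} [Field K₀] [Field E] [Field F] [Algebra K₀ E] [Algebra E F]
  [Algebra K₀ F] [IsScalarTower K₀ E F] {A₀ : ValuationSubring K₀} {p : ℕ} [Fact p.Prime]
  [FiniteDimensional E F] [IsGalois E F] {σ : F ≃ₐ[E] F}
  {R : Subring E} {ι : Type*} [Fintype ι] {V : ι → ValuationSubring E} {π : ι → E}
  {W : ι → ZMod p → ValuationSubring F}

/-- Horizontal unramifiedness, the form which is used: trivial codifferent at the discrete
horizontal valuation rings.  It follows from `HorUnr` (trivially) and from `HorE1`. -/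
def HorU (K₀ E F : Type*) [Field K₀] [Field E] [Field F] [Algebra K₀ E] [Algebra E F] : Prop :=
  ∀ (W : ValuationSubring E) (t : E), (∀ a : K₀, algebraMap K₀ E a ∈ W) → IsUnif W t →
    Unr W.toSubring E F

omit [Algebra K₀ F] [IsScalarTower K₀ E F] [Fact p.Prime] [FiniteDimensional E F]
  [IsGalois E F] in
theorem HorUnr.horU (h : HorUnr K₀ E F) : HorU K₀ E F := fun W _ hK _ => h W hK

omit [Algebra K₀ F] [IsScalarTower K₀ E F] in
theorem HorE1.horU (hdeg : Module.finrank E F = p) (hσ : σ ≠ 1) (hp0 : (p : K₀) ≠ 0)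
    (h : HorE1 K₀ E F) : HorU K₀ E F := by
  intro W t hK ht
  obtain ⟨W', hl, hu⟩ := h W t hK ht
  refine unr_of_unram hdeg (cyc_pow_eq_one hdeg σ) hσ ?_ ?_ hl hu
  · have := (map_ne_zero (algebraMap K₀ E)).2 hp0
    rwa [map_natCast] at this
  · have := hK ((p : K₀)⁻¹)
    rwa [map_inv₀, map_natCast] at this

omit [Algebra K₀ F] [IsScalarTower K₀ E F] in
/-- purity, first step: the codifferent of the integral closure of a regular point is trivial -/
theorem RegPt.unr' (hdeg : Module.finrank E F = p) (hσ : σ ≠ 1) (hA : IsUnif A₀ (p : K₀))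
    (h : RegPt A₀ p R V π) (hW : ∀ c, Sheets p σ (V c) (W c)) (hH : HorU K₀ E F) :
    Unr R E F := by
  have := h.ufd
  have := h.isFractionRing
  refine unr_of_forall_prime fun ϖ hϖ => ?_
  rcases h.primeVal_cases hA ϖ hϖ with ⟨c, hc⟩ | hK
  · rw [hc]
    exact (hW c).unr hdeg hσ
  · exact hH _ (ϖ : E) hK (isUnif_primeVal ϖ hϖ)

/-- the points of the cover above a regular point are regular. -/
theorem RegPt.lift (hdeg : Module.finrank E F = p) (hσ : σ ≠ 1) (h : RegPt A₀ p R V π)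
    (hW : ∀ c, Sheets p σ (V c) (W c)) {w : F} (hw : IsIntegral R w)
    (hsep : ∀ k : ℕ, ¬ p ∣ k → (σ ^ k) w - w ≠ 0 ∧ IsIntegral R ((σ ^ k) w - w)⁻¹)
    (𝔫 : Ideal (icl R F)) [𝔫.IsMaximal] (l : ι → ZMod p) (hl : OnSheets R W 𝔫 l) :
    RegPt A₀ p (locSub (icl R F) 𝔫) (fun c => W c (l c)) (fun c => algebraMap E F (π c)) where
  nonempty := h.nonempty
  pt := h.lift_isPt hdeg hσ hW 𝔫 l hl
  thr := fun c => h.lift_through hdeg hσ hW hw hsep 𝔫 l hl c
  unif := fun c => (hW c).unif (l c)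
  mem := fun c => le_locSub (isIntegral_algebraMap (R := R) (x := (⟨π c, h.mem c⟩ : R)))
  val_self := fun c => by
    have hp0 : (p : E) ≠ 0 := (h.unif c).ne_zero
    have hv0 : (V c).valuation (p : E) ≠ 0 := ((V c).valuation.ne_zero_iff).2 hp0
    have h1 : (V c).valuation (π c / (p : E)) = 1 := by
      rw [map_div₀, h.val_self c, div_self hv0]
    have h2 := ((hW c).val_map_eq (l c) (π c / (p : E))).2 h1
    rw [map_div₀, map_natCast, map_div₀] at h2
    have hvF : (W c (l c)).valuation (p : F) ≠ 0 :=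
      ((W c (l c)).valuation.ne_zero_iff).2 ((hW c).unif (l c)).ne_zero
    exact (div_eq_one_iff_eq hvF).1 h2
  val_other := fun c c' hcc => ((hW c').val_map_eq (l c') (π c)).2 (h.val_other c c' hcc)
  princ := fun c r hr hv => h.lift_princ hdeg hσ hW hw hsep 𝔫 l hl c hr hv
  prod := by
    rw [← map_prod, h.prod, map_natCast]

/-- **Purity.**  Above a regular point `R` of `X` and on any given sheet there is a regular point
of `Y`, with the same local equations and the same residues. -/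
theorem RegPt.exists_lift (hdeg : Module.finrank E F = p) (hσ : σ ≠ 1) (hA : IsUnif A₀ (p : K₀))
    (h : RegPt A₀ p R V π) (hW : ∀ c, Sheets p σ (V c) (W c)) (hH : HorU K₀ E F) (c₀ : ι)
    (i₀ : ZMod p) :
    ∃ (R' : Subring F) (l : ι → ZMod p), l c₀ = i₀ ∧
      RegPt A₀ p R' (fun c => W c (l c)) (fun c => algebraMap E F (π c)) ∧
      ∀ c z, RUnit R' z → ∃ r, RUnit R r ∧ (W c (l c)).valuation (z - algebraMap E F r) < 1 := by
  have hU : Unr R E F := h.unr' hdeg hσ hA hW hH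
  obtain ⟨n, b, hb, hspan⟩ := h.exists_basis (F := F)
  obtain ⟨z, hz, htr⟩ := exists_trace_one h.pt.add_rad h.pt.intClosed hU b hb hspan
  have hpr : (p : E) ∈ rad R := by
    have := h.pt.const_rad (p : K₀) (approx_val_unif_lt_one hA)
    rwa [map_natCast] at this
  have hun : ∀ k : ℕ, ¬ p ∣ k → RUnit R (k : E) := by
    intro k hk
    have := h.pt.runit_const (main_natCast_unit (Fact.out : p.Prime) hA hk)
    rwa [map_natCast] at this
  obtain ⟨w, hw, hsep⟩ := exists_sep_elt hdeg hσ h.pt.add_rad h.pt.intClosed hpr hun hz htr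
  obtain ⟨𝔫, l, h𝔫, hl0, hl⟩ := h.exists_max hdeg hσ hW c₀ i₀
  refine ⟨locSub (icl R F) 𝔫, l, hl0, h.lift hdeg hσ hW hw hsep 𝔫 l hl, fun c z hz => ?_⟩
  obtain ⟨r, -, hr, hiff⟩ := h.lift_dense hdeg hσ hW 𝔫 l hl c hz.mem
  exact ⟨r, hiff.1 hz, hr⟩

end P

section Main

variable {K₀ E F : Type*} [Field K₀] [Field E] [Field F] [Algebra K₀ E] [Algebra E F]
  [Algebra K₀ F] [IsScalarTower K₀ E F] {A₀ : ValuationSubring K₀} {p : ℕ} [Fact p.Prime]
  [FiniteDimensional E F] [IsGalois E F] {σ : F ≃ₐ[E] F}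

omit [Fact p.Prime] in
/-- normalisation of `g` -/
theorem main_normalise {W : ValuationSubring F} (hW : IsUnif W (p : F)) {u X g ε : F} {n : ℤ}
    (hg : g ≠ 0) (hX : X ≠ 0) (hu : u = ε * ((p : F) ^ n * X) * g ^ p) :
    ∃ (n' : ℤ) (g' : F), W.valuation g' = 1 ∧ u / ((p : F) ^ n' * X * g' ^ p) = ε := by
  have hp0 : (p : F) ≠ 0 := hW.ne_zero
  obtain ⟨s, hs⟩ := ord_exists_val hW hg
  refine ⟨n + p * s, g / (p : F) ^ s, ?_, ?_⟩
  · rw [map_div₀, map_zpow₀, hs, div_self (zpow_ne_zero _ (ord_val_unif_ne_zero hW))]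
  · have h1 : (p : F) ^ (n + p * s) * X * (g / (p : F) ^ s) ^ p = (p : F) ^ n * X * g ^ p := by
      rw [zpow_add₀ hp0, div_pow, zpow_mul, zpow_natCast, ← zpow_natCast ((p : F) ^ s) p,
        ← zpow_mul, ← zpow_natCast ((p : F)) p, ← zpow_mul, mul_comm (p : ℤ) s]
      have : (p : F) ^ (s * (p : ℤ)) ≠ 0 := zpow_ne_zero _ hp0
      field_simp
    rw [h1, hu]
    have h2 : (p : F) ^ n * X * g ^ p ≠ 0 :=
      mul_ne_zero (mul_ne_zero (zpow_ne_zero _ hp0) hX) (pow_ne_zero _ hg)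
    field_simp

/-- **Slope formula, case `p ∣ v(a)`**, with the `p` sheets. -/
theorem pl_main₀ (hdeg : Module.finrank E F = p) (hσ : σ ≠ 1) (hA : IsUnif A₀ (p : K₀))
    {Va Vb : ValuationSubring E} {Wa Wb : ZMod p → ValuationSubring F}
    (hVa : ∀ a ∈ A₀, algebraMap K₀ E a ∈ Va) (hVb : ∀ a ∈ A₀, algebraMap K₀ E a ∈ Vb)
    (hWa : Sheets p σ Va Wa) (hWb : Sheets p σ Vb Wb) (hH : HorU K₀ E F)
    {u β : F} {a : K₀} {e : ℤ} (hu : u ≠ 0) (hβ : β ≠ 0)
    (hσu : σ u = algebraMap K₀ F a * u * β ^ p)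
    (ha : A₀.valuation a = A₀.valuation (p : K₀) ^ ((p : ℤ) * e)) (hd : HorDiv K₀ p u) :
    ∃ c₀ : ZMod p,
      (∀ (R : Subring E) (x y : E), IsNode A₀ p R Va Vb x y →
        ∃ (n k : ℤ) (g : F) (r : E), (Wa 0).valuation g = 1 ∧ RUnit R r ∧ (k : ZMod p) = c₀ ∧
          (Wa 0).valuation (u / ((p : F) ^ n * algebraMap E F x ^ k * g ^ p) - algebraMap E F r)
            < 1) ∧
      (∀ R : Subring E, IsSmooth A₀ p R Va →
        ∃ (n : ℤ) (g : F) (r : E), (Wa 0).valuation g = 1 ∧ RUnit R r ∧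
          (Wa 0).valuation (u / ((p : F) ^ n * g ^ p) - algebraMap E F r) < 1) := by
  have hca : ∀ i, ∀ c ∈ A₀, algebraMap K₀ F c ∈ Wa i := fun i c hc => by
    rw [IsScalarTower.algebraMap_apply K₀ E F]
    exact (hWa.lies i _).2 (hVa c hc)
  have hcb : ∀ i, ∀ c ∈ A₀, algebraMap K₀ F c ∈ Wb i := fun i c hc => by
    rw [IsScalarTower.algebraMap_apply K₀ E F]
    exact (hWb.lies i _).2 (hVb c hc)
  obtain ⟨a₀, ha₀⟩ := ord_mod_const (σ : F ≃+* F) Wa hWa.unif hWa.shift hu hβ hσu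
    (fun i => main_val_const hA (hca i) ha)
  obtain ⟨b₀, hb₀⟩ := ord_mod_const (σ : F ≃+* F) Wb hWb.unif hWb.shift hu hβ hσu
    (fun i => main_val_const hA (hcb i) ha)
  have hp0 : (p : F) ≠ 0 := (hWa.unif 0).ne_zero
  refine ⟨b₀ - a₀, ?_, ?_⟩
  · intro R x y hN
    have hW : ∀ c : Bool, Sheets p σ ((fun b : Bool => cond b Va Vb) c)
        ((fun b : Bool => cond b Wa Wb) c) := by
      intro c
      cases c
      · exact hWb
      · exact hWa
    obtain ⟨R', l, hl0, hR', hres⟩ := hN.regPt.exists_lift hdeg hσ hA hW hH true 0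
    obtain ⟨na, hna⟩ := ord_exists_val (hWa.unif 0) hu
    obtain ⟨nb, hnb⟩ := ord_exists_val (hWb.unif (l false)) hu
    obtain ⟨g, ε, hg, hε, hfac⟩ := hR'.factor hA hu (horDivAt_of_horDiv hd R') (fun c : Bool => cond c na nb) (by
      intro c
      cases c
      · exact hnb
      · show (Wa (l true)).valuation u = (Wa (l true)).valuation (p : F) ^ na
        rw [hl0]
        exact hna)
    have hx0 : x ≠ 0 := by
      intro h0
      have := hN.x_unit
      rw [h0, map_zero] at this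
      exact zero_ne_one this
    have hxF : algebraMap E F x ≠ 0 := (map_ne_zero _).2 hx0
    have hy : algebraMap E F y = (p : F) / algebraMap E F x := by
      rw [eq_div_iff hxF, ← map_mul, mul_comm, hN.mul_eq, map_natCast]
    have hprod : (∏ c : Bool, (algebraMap E F (cond c y x)) ^ (cond c na nb : ℤ))
        = (p : F) ^ na * algebraMap E F x ^ (nb - na) := by
      rw [Fintype.prod_bool]
      show algebraMap E F y ^ na * algebraMap E F x ^ nb = _
      rw [hy, div_zpow, zpow_sub₀ hxF]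
      have : algebraMap E F x ^ na ≠ 0 := zpow_ne_zero _ hxF
      field_simp
    rw [hprod] at hfac
    obtain ⟨n', g', hg', hq⟩ := main_normalise (hWa.unif 0) hg (zpow_ne_zero (nb - na) hxF) hfac
    obtain ⟨r, hr, hrv⟩ := hres true ε hε
    refine ⟨n', nb - na, g', r, hg', hr, ?_, ?_⟩
    · push_cast
      rw [ha₀ 0 na hna, hb₀ (l false) nb hnb]
    · rw [hq]
      have : (Wa (l true)).valuation (ε - algebraMap E F r) < 1 := hrv
      rwa [hl0] at this
  · intro R hS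
    have hW : ∀ c : Unit, Sheets p σ ((fun _ : Unit => Va) c) ((fun _ : Unit => Wa) c) :=
      fun _ => hWa
    obtain ⟨R', l, hl0, hR', hres⟩ := hS.regPt.exists_lift hdeg hσ hA hW hH () 0
    obtain ⟨na, hna⟩ := ord_exists_val (hWa.unif 0) hu
    obtain ⟨g, ε, hg, hε, hfac⟩ := hR'.factor hA hu (horDivAt_of_horDiv hd R') (fun _ : Unit => na) (by
      intro c
      show (Wa (l c)).valuation u = (Wa (l c)).valuation (p : F) ^ na
      rw [show l c = 0 from hl0]
      exact hna)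
    have hprod : (∏ _c : Unit, (algebraMap E F (p : E)) ^ na) = (p : F) ^ na * 1 := by
      rw [Fintype.prod_unique, map_natCast, mul_one]
    rw [hprod] at hfac
    obtain ⟨n', g', hg', hq⟩ := main_normalise (hWa.unif 0) hg one_ne_zero hfac
    obtain ⟨r, hr, hrv⟩ := hres () ε hε
    refine ⟨n', g', r, hg', hr, ?_⟩
    rw [mul_one] at hq
    rw [hq]
    have : (Wa (l ())).valuation (ε - algebraMap E F r) < 1 := hrv
    rwa [hl0] at this

end Main

section Export

variable {K₀ E F : Type*} [Field K₀] [Field E] [Field F] [Algebra K₀ E] [Algebra E F]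
  [Algebra K₀ F] [IsScalarTower K₀ E F] {A₀ : ValuationSubring K₀} {p : ℕ} [Fact p.Prime]
  {σ : F ≃ₐ[E] F}

/-- **EXPORT (slope formula on the cyclic cover, case `p ∣ v(a)`).**
`F / E` is cyclic of degree `p` with generator `σ`; `Wa`, `Wb` are valuation rings of `F` above the
vertical valuation rings `Va`, `Vb` of `E`, with `e = f = 1`; `F / E` is horizontally unramified.
`u ∈ F` has a horizontal divisor divisible by `p` and `σ u = a u β ^ p` with `a` a constant,
`p ∣ v(a)`.  Then there is `c₀ : ZMod p` such that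
* at a node `x y = p` of `X`:  `u = p ^ n * ε * x ^ k * g ^ p`, `k = c₀` in `ZMod p`,
* at a smooth point of `X` on `Va`:  `u = p ^ n * ε * g ^ p`,
where `g` is a unit of `Wa` and `ε` is congruent modulo the maximal ideal of `Wa` to a unit `r` of
the local ring `R` of `X`. -/
theorem pl_main' (hpow : σ ^ p = 1) (hσ : σ ≠ 1)
    (hfix : ∀ z, σ z = z → z ∈ (algebraMap E F).range) (hA : IsUnif A₀ (p : K₀))
    {Va Vb : ValuationSubring E} {Wa Wb : ValuationSubring F}
    (hVa : ∀ a ∈ A₀, algebraMap K₀ E a ∈ Va) (hVb : ∀ a ∈ A₀, algebraMap K₀ E a ∈ Vb)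
    (hla : ∀ z : E, algebraMap E F z ∈ Wa ↔ z ∈ Va) (hua : IsUnif Wa (p : F))
    (hda : ∀ z ∈ Wa, ∃ e : E, Wa.valuation (z - algebraMap E F e) < 1)
    (hlb : ∀ z : E, algebraMap E F z ∈ Wb ↔ z ∈ Vb) (hub : IsUnif Wb (p : F))
    (hdb : ∀ z ∈ Wb, ∃ e : E, Wb.valuation (z - algebraMap E F e) < 1)
    (hH : HorE1 K₀ E F) {u β : F} {a : K₀} {e : ℤ} (hu : u ≠ 0) (hβ : β ≠ 0)
    (hσu : σ u = algebraMap K₀ F a * u * β ^ p)
    (ha : A₀.valuation a = A₀.valuation (p : K₀) ^ ((p : ℤ) * e)) (hd : HorDiv K₀ p u) :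
    ∃ c₀ : ZMod p,
      (∀ (R : Subring E) (x y : E), IsNode A₀ p R Va Vb x y →
        ∃ (n k : ℤ) (g : F) (r : E), Wa.valuation g = 1 ∧ RUnit R r ∧ (k : ZMod p) = c₀ ∧
          Wa.valuation (u / ((p : F) ^ n * algebraMap E F x ^ k * g ^ p) - algebraMap E F r)
            < 1) ∧
      (∀ R : Subring E, IsSmooth A₀ p R Va →
        ∃ (n : ℤ) (g : F) (r : E), Wa.valuation g = 1 ∧ RUnit R r ∧
          Wa.valuation (u / ((p : F) ^ n * g ^ p) - algebraMap E F r) < 1) := by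
  obtain ⟨h1, h2, hdeg⟩ := cyc_of_fixed σ hpow hσ hfix
  have h := pl_main₀ hdeg hσ hA hVa hVb (sheets_of_one hpow hσ hla hua hda)
    (sheets_of_one hpow hσ hlb hub hdb) (hH.horU hdeg hσ hA.ne_zero) hu hβ hσu ha hd
  rwa [tw_zero] at h

/-- The same export, with horizontal unramifiedness in the form `HorUnr`. -/
theorem pl_main_unr (hpow : σ ^ p = 1) (hσ : σ ≠ 1)
    (hfix : ∀ z, σ z = z → z ∈ (algebraMap E F).range) (hA : IsUnif A₀ (p : K₀))
    {Va Vb : ValuationSubring E} {Wa Wb : ValuationSubring F}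
    (hVa : ∀ a ∈ A₀, algebraMap K₀ E a ∈ Va) (hVb : ∀ a ∈ A₀, algebraMap K₀ E a ∈ Vb)
    (hla : ∀ z : E, algebraMap E F z ∈ Wa ↔ z ∈ Va) (hua : IsUnif Wa (p : F))
    (hda : ∀ z ∈ Wa, ∃ e : E, Wa.valuation (z - algebraMap E F e) < 1)
    (hlb : ∀ z : E, algebraMap E F z ∈ Wb ↔ z ∈ Vb) (hub : IsUnif Wb (p : F))
    (hdb : ∀ z ∈ Wb, ∃ e : E, Wb.valuation (z - algebraMap E F e) < 1)
    (hH : HorUnr K₀ E F) {u β : F} {a : K₀} {e : ℤ} (hu : u ≠ 0) (hβ : β ≠ 0)
    (hσu : σ u = algebraMap K₀ F a * u * β ^ p)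
    (ha : A₀.valuation a = A₀.valuation (p : K₀) ^ ((p : ℤ) * e)) (hd : HorDiv K₀ p u) :
    ∃ c₀ : ZMod p,
      (∀ (R : Subring E) (x y : E), IsNode A₀ p R Va Vb x y →
        ∃ (n k : ℤ) (g : F) (r : E), Wa.valuation g = 1 ∧ RUnit R r ∧ (k : ZMod p) = c₀ ∧
          Wa.valuation (u / ((p : F) ^ n * algebraMap E F x ^ k * g ^ p) - algebraMap E F r)
            < 1) ∧
      (∀ R : Subring E, IsSmooth A₀ p R Va →
        ∃ (n : ℤ) (g : F) (r : E), Wa.valuation g = 1 ∧ RUnit R r ∧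
          Wa.valuation (u / ((p : F) ^ n * g ^ p) - algebraMap E F r) < 1) := by
  obtain ⟨h1, h2, hdeg⟩ := cyc_of_fixed σ hpow hσ hfix
  have h := pl_main₀ hdeg hσ hA hVa hVb (sheets_of_one hpow hσ hla hua hda)
    (sheets_of_one hpow hσ hlb hub hdb) hH.horU hu hβ hσu ha hd
  rwa [tw_zero] at h

end Export

end Fermat.Agent.S44.PL

end
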