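/-
S44 / X / PL (owner helper223): the export in the language of composite valuation rings.

`VV ≤ Wa` is a valuation ring of `F` contained in the sheet `Wa` (= a place of the residue field of
`Wa`), at which the units of the local ring `R` of `X` are units (`VV` dominates `R`).
-/
import Fermat.Agent.S44.X.PL.Main

set_option autoImplicit false

noncomputable section

namespace Fermat.Agent.S44.PL

open Fermat.Agent.S18 Fermat.Agent.S36.BP Fermat.Agent.KLB

section

variable {F : Type*} [Field F]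

theorem comp_val_lt_one {VV W : ValuationSubring F} (hle : VV ≤ W) {z : F}
    (hz : W.valuation z < 1) : VV.valuation z < 1 := by
  have h1 : z ∈ W.nonunits := W.mem_nonunits_iff.2 hz
  exact VV.mem_nonunits_iff.1 ((ValuationSubring.nonunits_le_nonunits.2 hle) h1)

theorem comp_val_eq_one {VV W : ValuationSubring F} (hle : VV ≤ W) {z r : F}
    (hz : W.valuation (z - r) < 1) (hr : VV.valuation r = 1) : VV.valuation z = 1 := by
  have h1 : VV.valuation (z - r) < 1 := comp_val_lt_one hle hz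
  have h2 : z = r + (z - r) := by ring
  rw [h2, Valuation.map_add_eq_of_lt_left _ (by rwa [hr]), hr]

end

variable {K₀ E F : Type*} [Field K₀] [Field E] [Field F] [Algebra K₀ E] [Algebra E F]
  {A₀ : ValuationSubring K₀} {p : ℕ} [Fact p.Prime]

/-- From the conclusion of `pl_main'` / `pl_main_unr` to composite valuation rings. -/
theorem composite_of_main {Va Vb : ValuationSubring E} {Wa : ValuationSubring F} {u : F}
    (hp0 : (p : F) ≠ 0)
    (H : ∃ c₀ : ZMod p,
      (∀ (R : Subring E) (x y : E), IsNode A₀ p R Va Vb x y →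
        ∃ (n k : ℤ) (g : F) (r : E), Wa.valuation g = 1 ∧ RUnit R r ∧ (k : ZMod p) = c₀ ∧
          Wa.valuation (u / ((p : F) ^ n * algebraMap E F x ^ k * g ^ p) - algebraMap E F r)
            < 1) ∧
      (∀ R : Subring E, IsSmooth A₀ p R Va →
        ∃ (n : ℤ) (g : F) (r : E), Wa.valuation g = 1 ∧ RUnit R r ∧
          Wa.valuation (u / ((p : F) ^ n * g ^ p) - algebraMap E F r) < 1)) :
    ∃ c : ℤ,
      (∀ (R : Subring E) (x y : E) (VV : ValuationSubring F), VV ≤ Wa →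
        (∀ r, RUnit R r → VV.valuation (algebraMap E F r) = 1) →
        (IsNode A₀ p R Va Vb x y ∨ (IsSmooth A₀ p R Va ∧ RUnit R x)) →
        ∃ (h : F) (e : ℤ), h ≠ 0 ∧
          VV.valuation (u * algebraMap E F x ^ (-c) * (p : F) ^ e * h ^ p) = 1) ∧
      (∀ (R : Subring E) (VV : ValuationSubring F), VV ≤ Wa →
        (∀ r, RUnit R r → VV.valuation (algebraMap E F r) = 1) → IsSmooth A₀ p R Va →
        ∃ (h : F) (e : ℤ), h ≠ 0 ∧ VV.valuation (u * (p : F) ^ e * h ^ p) = 1) := by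
  obtain ⟨c₀, hN, hS⟩ := H
  have hsm : ∀ (R : Subring E) (VV : ValuationSubring F), VV ≤ Wa →
      (∀ r, RUnit R r → VV.valuation (algebraMap E F r) = 1) → IsSmooth A₀ p R Va →
      ∃ (h : F) (e : ℤ), h ≠ 0 ∧ VV.valuation (u * (p : F) ^ e * h ^ p) = 1 := by
    intro R VV hle hdom hR
    obtain ⟨n, g, r, hg, hr, hv⟩ := hS R hR
    have hg0 : g ≠ 0 := ne_zero_of_val_eq_one hg
    refine ⟨g⁻¹, -n, inv_ne_zero hg0, ?_⟩
    have h1 := comp_val_eq_one hle hv (hdom r hr)
    have h2 : u * (p : F) ^ (-n) * g⁻¹ ^ p = u / ((p : F) ^ n * g ^ p) := by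
      rw [zpow_neg, inv_pow]
      field_simp
    rw [h2]
    exact h1
  refine ⟨(c₀.val : ℤ), ?_, hsm⟩
  intro R x y VV hle hdom hR
  rcases hR with hR | ⟨hR, hx⟩
  · obtain ⟨n, k, g, r, hg, hr, hk, hv⟩ := hN R x y hR
    have hg0 : g ≠ 0 := ne_zero_of_val_eq_one hg
    have hx0 : x ≠ 0 := ne_zero_of_val_eq_one hR.x_unit
    have hxF : algebraMap E F x ≠ 0 := (map_ne_zero _).2 hx0
    have hdvd : (p : ℤ) ∣ k - (c₀.val : ℤ) := by
      rw [← ZMod.intCast_zmod_eq_zero_iff_dvd]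
      push_cast
      rw [hk, ZMod.natCast_zmod_val, sub_self]
    obtain ⟨m, hm⟩ := hdvd
    refine ⟨(algebraMap E F x ^ m * g)⁻¹, -n, inv_ne_zero (mul_ne_zero (zpow_ne_zero _ hxF) hg0), ?_⟩
    have h1 := comp_val_eq_one hle hv (hdom r hr)
    have hk' : k = (c₀.val : ℤ) + m * p := by linarith
    have h2 : u * algebraMap E F x ^ (-(c₀.val : ℤ)) * (p : F) ^ (-n) *
        (algebraMap E F x ^ m * g)⁻¹ ^ p = u / ((p : F) ^ n * algebraMap E F x ^ k * g ^ p) := by
      obtain ⟨X, hX⟩ : ∃ X : F, X = algebraMap E F x := ⟨_, rfl⟩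
      rw [← hX] at hxF ⊢
      obtain ⟨a, ha⟩ : ∃ a : F, a = X ^ (c₀.val : ℤ) := ⟨_, rfl⟩
      obtain ⟨b, hb⟩ : ∃ b : F, b = X ^ m := ⟨_, rfl⟩
      obtain ⟨P, hP⟩ : ∃ P : F, P = (p : F) ^ n := ⟨_, rfl⟩
      have ha0 : a ≠ 0 := ha ▸ zpow_ne_zero _ hxF
      have hb0 : b ≠ 0 := hb ▸ zpow_ne_zero _ hxF
      have hP0 : P ≠ 0 := hP ▸ zpow_ne_zero _ hp0
      rw [hk', zpow_add₀ hxF, zpow_mul, zpow_neg, zpow_neg, inv_pow, mul_pow,
        ← ha, ← hb, ← hP, zpow_natCast]
      field_simp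
    rw [h2]
    exact h1
  · obtain ⟨h, e, hh, hv⟩ := hsm R VV hle hdom hR
    refine ⟨h, e, hh, ?_⟩
    have hxv : VV.valuation (algebraMap E F x) = 1 := hdom x hx
    have h2 : u * algebraMap E F x ^ (-(c₀.val : ℤ)) * (p : F) ^ e * h ^ p =
        (u * (p : F) ^ e * h ^ p) * algebraMap E F x ^ (-(c₀.val : ℤ)) := by ring
    rw [h2, map_mul, hv, one_mul, map_zpow₀, hxv, one_zpow]

end Fermat.Agent.S44.PL

end
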