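/-
S44, node X, block PL (owner helper223): variants of the export.

* `pl_main_sheets` : the slope formula with the `p` sheets as hypotheses (no density hypothesis);
* `pl_main_ns`     : one sheet above `Va`, `Vb`, uniformiser `p`, NOT stable under `σ`;
* `Sheets.dense'`, `dense_of_unstable` : residue degree one.
-/
import Fermat.Agent.S44.X.PL.Main
import Fermat.Agent.S44.X.PL.Sheets.Dense

set_option autoImplicit false

noncomputable section

namespace Fermat.Agent.S44.PL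

open Fermat.Agent.S18 Fermat.Agent.S18.Abs Fermat.Agent.S36.BP Fermat.Agent.KLB

section T

variable {E F : Type*} [Field E] [Field F] [Algebra E F] {p : ℕ} [Fact p.Prime]
  {σ : F ≃ₐ[E] F} {V : ValuationSubring E}

/-- one sheet with `e = 1` which is not stable under `σ` gives the `p` sheets -/
theorem sheets_of_unstable {W : ValuationSubring F} (hpow : σ ^ p = 1)
    (hl : ∀ z : E, algebraMap E F z ∈ W ↔ z ∈ V) (hunif : IsUnif W (p : F))
    (hns : ¬ ∀ z, σ z ∈ W ↔ z ∈ W) : Sheets p σ V (tw σ W) where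
  lies := tw_lies σ hl
  shift := tw_shift hpow W
  inj := tw_inj hpow hns
  unif := fun i => by
    have := tw_unif σ (ϖ := (p : E)) (W := W) (by rwa [map_natCast]) i
    rwa [map_natCast] at this

/-- residue degree one on the sheets -/
theorem Sheets.dense' {W : ZMod p → ValuationSubring F} (hpow : σ ^ p = 1) (hσ : σ ≠ 1)
    (hfix : ∀ z, σ z = z → z ∈ (algebraMap E F).range) (h : Sheets p σ V W) (i : ZMod p) {z : F}
    (hz : z ∈ W i) : ∃ z' ∈ V, (W i).valuation (z - algebraMap E F z') < 1 := by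
  obtain ⟨h1, h2, hdeg⟩ := cyc_of_fixed σ hpow hσ hfix
  exact h.dense hdeg hσ i hz

/-- residue degree one on a sheet which is not stable under `σ` -/
theorem dense_of_unstable {W : ValuationSubring F} (hpow : σ ^ p = 1) (hσ : σ ≠ 1)
    (hfix : ∀ z, σ z = z → z ∈ (algebraMap E F).range)
    (hl : ∀ z : E, algebraMap E F z ∈ W ↔ z ∈ V) (hunif : IsUnif W (p : F))
    (hns : ¬ ∀ z, σ z ∈ W ↔ z ∈ W) {z : F} (hz : z ∈ W) :
    ∃ z' ∈ V, W.valuation (z - algebraMap E F z') < 1 := by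
  have h := (sheets_of_unstable hpow hl hunif hns).dense' hpow hσ hfix 0 (z := z)
    (by rwa [tw_zero])
  rwa [tw_zero] at h

end T

section Export

variable {K₀ E F : Type*} [Field K₀] [Field E] [Field F] [Algebra K₀ E] [Algebra E F]
  [Algebra K₀ F] [IsScalarTower K₀ E F] {A₀ : ValuationSubring K₀} {p : ℕ} [Fact p.Prime]
  {σ : F ≃ₐ[E] F}

/-- **EXPORT**, with the `p` sheets above `Va` and above `Vb`. -/
theorem pl_main_sheets (hpow : σ ^ p = 1) (hσ : σ ≠ 1)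
    (hfix : ∀ z, σ z = z → z ∈ (algebraMap E F).range) (hA : IsUnif A₀ (p : K₀))
    {Va Vb : ValuationSubring E} {Wa Wb : ZMod p → ValuationSubring F}
    (hVa : ∀ a ∈ A₀, algebraMap K₀ E a ∈ Va) (hVb : ∀ a ∈ A₀, algebraMap K₀ E a ∈ Vb)
    (hWa : Sheets p σ Va Wa) (hWb : Sheets p σ Vb Wb)
    (hH : HorE1 K₀ E F) {u β : F} {a : K₀} {e : ℤ} (hu : u ≠ 0) (hβ : β ≠ 0)
    (hσu : σ u = algebraMap K₀ F a * u * β ^ p)
    (ha : A₀.valuation a = A₀.valuation (p : K₀) ^ ((p : ℤ) * e)) (hd : HorDiv K₀ p u) :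
    ∃ c₀ : ZMod p,
      (∀ (R : Subring E) (x y : E), IsNode A₀ p R Va Vb x y →
        ∃ (n k : ℤ) (g : F) (r : E), (Wa 0).valuation g = 1 ∧ RUnit R r ∧ (k : ZMod p) = c₀ ∧
          (Wa 0).valuation (u / ((p : F) ^ n * algebraMap E F x ^ k * g ^ p) - algebraMap E F r)
            < 1) ∧
      (∀ R : Subring E, IsSmooth A₀ p R Va →
        ∃ (n : ℤ) (g : F) (r : E), (Wa 0).valuation g = 1 ∧ RUnit R r ∧
          (Wa 0).valuation (u / ((p : F) ^ n * g ^ p) - algebraMap E F r) < 1) := by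
  obtain ⟨h1, h2, hdeg⟩ := cyc_of_fixed σ hpow hσ hfix
  exact pl_main₀ hdeg hσ hA hVa hVb hWa hWb (hH.horU hdeg hσ hA.ne_zero) hu hβ hσu ha hd

/-- **EXPORT**, with one sheet above `Va` and one above `Vb`, not stable under `σ`. -/
theorem pl_main_ns (hpow : σ ^ p = 1) (hσ : σ ≠ 1)
    (hfix : ∀ z, σ z = z → z ∈ (algebraMap E F).range) (hA : IsUnif A₀ (p : K₀))
    {Va Vb : ValuationSubring E} {Wa Wb : ValuationSubring F}
    (hVa : ∀ a ∈ A₀, algebraMap K₀ E a ∈ Va) (hVb : ∀ a ∈ A₀, algebraMap K₀ E a ∈ Vb)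
    (hla : ∀ z : E, algebraMap E F z ∈ Wa ↔ z ∈ Va) (hua : IsUnif Wa (p : F))
    (hna : ¬ ∀ z, σ z ∈ Wa ↔ z ∈ Wa)
    (hlb : ∀ z : E, algebraMap E F z ∈ Wb ↔ z ∈ Vb) (hub : IsUnif Wb (p : F))
    (hnb : ¬ ∀ z, σ z ∈ Wb ↔ z ∈ Wb)
    (hH : HorE1 K₀ E F) {u β : F} {a : K₀} {e : ℤ} (hu : u ≠ 0) (hβ : β ≠ 0)
    (hσu : σ u = algebraMap K₀ F a * u * β ^ p)
    (ha : A₀.valuation a = A₀.valuation (p : K₀) ^ ((p : ℤ) * e)) (hd : HorDiv K₀ p u) :
    ∃ c₀ : ZMod p,
      (∀ (R : Subring E) (x y : E), IsNode A₀ p R Va Vb x y →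
        ∃ (n k : ℤ) (g : F) (r : E), Wa.valuation g = 1 ∧ RUnit R r ∧ (k : ZMod p) = c₀ ∧
          Wa.valuation (u / ((p : F) ^ n * algebraMap E F x ^ k * g ^ p) - algebraMap E F r)
            < 1) ∧
      (∀ R : Subring E, IsSmooth A₀ p R Va →
        ∃ (n : ℤ) (g : F) (r : E), Wa.valuation g = 1 ∧ RUnit R r ∧
          Wa.valuation (u / ((p : F) ^ n * g ^ p) - algebraMap E F r) < 1) := by
  have h := pl_main_sheets hpow hσ hfix hA hVa hVb (sheets_of_unstable hpow hla hua hna)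
    (sheets_of_unstable hpow hlb hub hnb) hH hu hβ hσu ha hd
  rwa [tw_zero] at h

end Export

end Fermat.Agent.S44.PL

end
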